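import Fermat.Agent.S38.IA.Hecke.LevelLemmas
import Fermat.Agent.S59.TW.H564.TwistChar

/-!
# Row HARD, cell HECKE, leaf IA-NU (helper47): lifts of the diamond indices which are `≡ 1`
modulo `N₀`

The diamond operators `diaIA a₁ a₂` of `Spec3` are defined through `gLift`, an ARBITRARY lift of
`(a₁, a₂) ∈ ∏ (ℤ/qq s)ˣ` to `(ℤ/M)ˣ`, `M = N₀ ∏ qq s`; the dictionaries
(`H227.nuNew`, `H561.carriesAt_of_support`) need a lift which is `≡ 1` modulo the other primes of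
`M`, in particular modulo `N₀`.

* `exists_niceLift` : every `a ∈ ∏ (ℤ/qq s)ˣ` has a lift `d ∈ (ℤ/M)ˣ` with `d ≡ 1 mod N₀`;
* `diamondU_niceLift` : its diamond operator on `X_K`, `K = KG p N₀ qq`, is the one of `gLift a`;
* `cast_niceLift_of_prime` : `d ≡ 1` modulo every prime `q ∣ M` such that `q ≠ qq s` for all
  `s` with `a s ≠ 1`.
-/

set_option autoImplicit false
set_option linter.unusedSectionVars false
set_option linter.unusedVariables false

open CongruenceSubgroup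
open scoped MatrixGroups

namespace Fermat.Agent.S38.H47

open Fermat.Agent.S59.TW.H653 Fermat.Agent.S38.IA.Hecke

section

variable (p N₀ : ℕ) {ι : Type} [Fintype ι] (qq : ι → ℕ)

/-- Every `a ∈ ∏ (ℤ/qq s)ˣ` has a lift to `(ℤ/M)ˣ` which is `≡ 1` modulo `N₀`. -/
theorem exists_niceLift (hN₀ : N₀ ≠ 0) (hinj : Function.Injective qq)
    (hprime : ∀ s, (qq s).Prime) (hcop : ∀ s, Nat.Coprime N₀ (qq s))
    (a : ∀ s : ι, (ZMod (qq s))ˣ) :
    ∃ d : (ZMod (gLevel N₀ qq))ˣ, gRed N₀ qq d = a ∧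
      (((d : (ZMod (gLevel N₀ qq))ˣ) : ZMod (gLevel N₀ qq)).cast : ZMod N₀) = 1 := by
  have : NeZero (gLevel N₀ qq) := ⟨gLevel_ne_zero N₀ qq hN₀ hprime⟩
  obtain ⟨d₀, hd₀⟩ := gRed_surjective N₀ qq hN₀ hinj hprime a
  have hcopP : Nat.Coprime N₀ (∏ s, qq s) := Nat.Coprime.prod_right fun s _ => hcop s
  set v : ℕ := ((d₀ : (ZMod (gLevel N₀ qq))ˣ) : ZMod (gLevel N₀ qq)).val with hv
  obtain ⟨z, hz1, hz2⟩ := Fermat.Agent.S59.TW.H564.exists_int_crt hcopP 1 (v : ℤ)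
  have hvM : Nat.Coprime v (gLevel N₀ qq) := ZMod.val_coe_unit_coprime d₀
  have hvP : IsCoprime (v : ℤ) ((∏ s, qq s : ℕ) : ℤ) :=
    Nat.isCoprime_iff_coprime.mpr (Nat.Coprime.coprime_dvd_right (Dvd.intro_left _ rfl) hvM)
  have hzP : IsCoprime z ((∏ s, qq s : ℕ) : ℤ) := by
    obtain ⟨c, hc⟩ := hz2
    have h1 : z = (v : ℤ) + ((∏ s, qq s : ℕ) : ℤ) * c := by linear_combination hc
    rw [h1]
    exact hvP.add_mul_left_left c
  have hzN : IsCoprime z (N₀ : ℤ) := by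
    obtain ⟨c, hc⟩ := hz1
    exact ⟨1, -c, by linear_combination hc⟩
  have hzu : IsUnit ((z : ℤ) : ZMod (gLevel N₀ qq)) := by
    rw [ZMod.coe_int_isUnit_iff_isCoprime]
    unfold gLevel
    rw [Nat.cast_mul]
    exact IsCoprime.mul_left hzN.symm hzP.symm
  refine ⟨hzu.unit, ?_, ?_⟩
  · funext s
    apply Units.ext
    rw [gRed_apply, ← hd₀, gRed_apply]
    show ZMod.castHom (dvd_gLevel N₀ qq s) (ZMod (qq s)) ((hzu.unit : (ZMod (gLevel N₀ qq))ˣ) :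
        ZMod (gLevel N₀ qq)) =
      ZMod.castHom (dvd_gLevel N₀ qq s) (ZMod (qq s))
        ((d₀ : (ZMod (gLevel N₀ qq))ˣ) : ZMod (gLevel N₀ qq))
    rw [IsUnit.unit_spec, map_intCast]
    have h2 : ((d₀ : (ZMod (gLevel N₀ qq))ˣ) : ZMod (gLevel N₀ qq)) =
        ((v : ℕ) : ZMod (gLevel N₀ qq)) := by
      rw [hv, ZMod.natCast_zmod_val]
    rw [h2, map_natCast]
    have h3 : ((qq s : ℕ) : ℤ) ∣ z - (v : ℤ) :=
      (Int.natCast_dvd_natCast.mpr (Finset.dvd_prod_of_mem qq (Finset.mem_univ s))).trans hz2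
    have h4 := (ZMod.intCast_zmod_eq_zero_iff_dvd _ _).mpr h3
    push_cast at h4
    exact sub_eq_zero.mp h4
  · rw [IsUnit.unit_spec]
    have h5 : (((z : ℤ) : ZMod (gLevel N₀ qq)).cast : ZMod N₀) = ((z : ℤ) : ZMod N₀) := by
      have := map_intCast (ZMod.castHom (self_dvd_gLevel N₀ qq) (ZMod N₀)) z
      exact this
    rw [h5]
    have h4 := (ZMod.intCast_zmod_eq_zero_iff_dvd _ _).mpr hz1
    push_cast at h4
    exact sub_eq_zero.mp h4

/-- The diamond operator of a lift of `a` is the diamond operator of `gLift a`. -/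
theorem diamondU_eq_gLift [NeZero (gLevel N₀ qq)]
    (hsurj : Function.Surjective (gRed N₀ qq)) {A : Type} [AddCommGroup A]
    {a : ∀ s : ι, (ZMod (qq s))ˣ} {d : (ZMod (gLevel N₀ qq))ˣ} (hd : gRed N₀ qq d = a)
    (x : Additive (KG p N₀ qq) →+ A) :
    diamondU (isMid_KG p N₀ qq) d x = diamondU (isMid_KG p N₀ qq) (gLift N₀ qq a) x := by
  apply diamondU_eq_of_gChi
  apply gChi_eq_of_gRed
  rw [hd, gRed_gLift' N₀ qq hsurj]

/-- A lift `d ≡ 1 mod N₀` of `a` is `≡ 1` modulo every prime `q ∣ M` which is not one of the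
`qq s` with `a s ≠ 1`. -/
theorem cast_niceLift_of_prime [NeZero (gLevel N₀ qq)] (hprime : ∀ s, (qq s).Prime)
    {a : ∀ s : ι, (ZMod (qq s))ˣ} {d : (ZMod (gLevel N₀ qq))ˣ} (hd : gRed N₀ qq d = a)
    (hd1 : (((d : (ZMod (gLevel N₀ qq))ˣ) : ZMod (gLevel N₀ qq)).cast : ZMod N₀) = 1)
    {q : ℕ} (hq : q.Prime) (hqM : q ∣ gLevel N₀ qq) (hqa : ∀ s, a s ≠ 1 → q ≠ qq s) :
    (((((d : (ZMod (gLevel N₀ qq))ˣ) : ZMod (gLevel N₀ qq)).val : ℕ) : ℤ) : ZMod q) = 1 := by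
  rw [Int.cast_natCast]
  rcases (Nat.Prime.dvd_mul hq).mp hqM with h | h
  · -- `q ∣ N₀`
    have h1 : ((((d : (ZMod (gLevel N₀ qq))ˣ) : ZMod (gLevel N₀ qq)).val : ℕ) : ZMod N₀) = 1 := by
      rw [ZMod.natCast_val]
      exact hd1
    have h2 := congrArg (ZMod.castHom h (ZMod q)) h1
    rwa [map_natCast, map_one] at h2
  · obtain ⟨s, -, hs⟩ := (Prime.dvd_finsetProd_iff hq.prime _).mp h
    have hqs : q = qq s := (Nat.prime_dvd_prime_iff_eq hq (hprime s)).mp hs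
    have has : a s = 1 := by
      by_contra hne
      exact hqa s hne hqs
    subst hqs
    have h1 : gRed N₀ qq d s = 1 := by rw [hd, has]
    have h2 : ZMod.castHom (dvd_gLevel N₀ qq s) (ZMod (qq s))
        ((d : (ZMod (gLevel N₀ qq))ˣ) : ZMod (gLevel N₀ qq)) = 1 := by
      have := congrArg (fun u : (ZMod (qq s))ˣ => (u : ZMod (qq s))) h1
      exact this
    have h3 : ((d : (ZMod (gLevel N₀ qq))ˣ) : ZMod (gLevel N₀ qq)) =
        ((((d : (ZMod (gLevel N₀ qq))ˣ) : ZMod (gLevel N₀ qq)).val : ℕ) :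
          ZMod (gLevel N₀ qq)) := (ZMod.natCast_zmod_val _).symm
    rw [h3, map_natCast] at h2
    exact h2

end

end Fermat.Agent.S38.H47
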