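import Fermat.Agent.S38.IA.Hecke.LevelLemmas
import Fermat.Agent.S59.TW.H47.TwistHypOdd
import Fermat.Agent.S59.TW.H658.ModQRing

/-!
# Row HARD, cell HECKE, leaf IA-NU / DICT (helper47): the twist hypothesis at the level `K_IA`

`S59/TW/H47/TwistHypOdd.lean` (main) proves `H658.TwistHyp K N' (uCls^m)` in the abstract
Taylor–Wiles shape.  Here are the instances for the groups of row HARD:

* for a family `qq : ι → ℕ` of distinct primes prime to `N₀` (`ι` any finite type),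
  `M = gLevel N₀ qq`, `K = KG p N₀ qq`: the list `gList qq` of the primes, `q ∥ M`
  (`exists_gLevel_eq`), `Γ₀(M) ∩ Γ₁(∏ qq) ⊆ K` (`mem_KG_of_dvd`), `γ^(2h+1) ∈ K` when
  `p^{m_s} ∣ 2h+1` for all `s` (`pow_mem_KG`), hence `twistHyp_KG`;
* `wilesLevel_IA` : `N_{Smin ∪ Piv ∪ Q} = N_{Smin} · ∏ pv² · ∏ qv²`, and `gLevel_mul_prod_IA`;
* `twistHyp_KIA` : `TwistHyp (KIA p Smin pv qv) (wilesLevel p .flat Smin (Smin ∪ Piv ∪ Q))
  (fun ℓ => uOf M ℓ ^ h)` for `IsHalf p pv h`, `IsHalf p qv h`: the hypothesis `H` of the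
  dictionaries (`H561.exists_twisted_eigenvector`, `H126.dictK_complex126`, …) at `K = K_IA`,
  with `u ℓ = uOf M ℓ ^ h` exactly as in `Aut.tOpTw` / `IsIAAction`;
* `embHyp_KIA`, `exists_heckeAction_KIA_int` : the same for `H658.EmbHyp` and the integral Hecke
  action on `Hom_par(K_IA, ℤ)`.
-/

set_option autoImplicit false
set_option linter.unusedSectionVars false
set_option linter.unusedVariables false
set_option linter.style.haveILetI false

noncomputable section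

namespace Fermat.Agent.S38.H47

open CongruenceSubgroup ModularForm
open Matrix.SpecialLinearGroup
open Fermat.Agent.S59.Arch Fermat.Agent.S59.TW.H653 Fermat.Agent.S59.TW.Aut
open Fermat.Agent.S59.TW.H658 Fermat.Agent.S38.IA.Hecke
open scoped MatrixGroups

/-! ## A family of primes indexed by a finite type -/

section Gen

variable (p N₀ : ℕ) {ι : Type} [Fintype ι] (qq : ι → ℕ)

/-- The list of the primes of the family. -/
def gList : List ℕ := (Finset.univ : Finset ι).toList.map qq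

theorem gList_prod : (gList qq).prod = ∏ s, qq s := Finset.prod_map_toList _ _

theorem mem_gList {q : ℕ} : q ∈ gList qq ↔ ∃ s, qq s = q := by
  simp [gList]

theorem gList_nodup (hinj : Function.Injective qq) : (gList qq).Nodup :=
  List.Nodup.map hinj (Finset.nodup_toList _)

/-- Each `qq s` exactly divides `gLevel N₀ qq`. -/
theorem exists_gLevel_eq (hinj : Function.Injective qq) (hprime : ∀ s, (qq s).Prime)
    (hcop : ∀ s, Nat.Coprime N₀ (qq s)) (s : ι) :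
    ∃ M' : ℕ, gLevel N₀ qq = M' * qq s ∧ Nat.Coprime M' (qq s) := by
  classical
  refine ⟨N₀ * ∏ i ∈ Finset.univ.erase s, qq i, ?_, ?_⟩
  · rw [gLevel, ← Finset.mul_prod_erase Finset.univ qq (Finset.mem_univ s)]
    ring
  · refine Nat.Coprime.mul_left (hcop s) ?_
    refine Nat.Coprime.prod_left fun i hi => ?_
    exact (Nat.coprime_primes (hprime i) (hprime s)).mpr
      fun h => (Finset.ne_of_mem_erase hi) (hinj h)

theorem gList_spec (hinj : Function.Injective qq) (hprime : ∀ s, (qq s).Prime)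
    (hcop : ∀ s, Nat.Coprime N₀ (qq s)) :
    ∀ q ∈ gList qq, q.Prime ∧ ∃ M' : ℕ, gLevel N₀ qq = M' * q ∧ Nat.Coprime M' q := by
  intro q hq
  obtain ⟨s, rfl⟩ := (mem_gList qq).mp hq
  exact ⟨hprime s, exists_gLevel_eq N₀ qq hinj hprime hcop s⟩

/-- `Γ₀(M) ∩ Γ₁(∏ qq) ⊆ K`. -/
theorem mem_KG_of_dvd {γ : SL(2, ℤ)} (hγ : γ ∈ Gamma0 (gLevel N₀ qq))
    (h : (((gList qq).prod : ℕ) : ℤ) ∣ γ 1 1 - 1) : γ ∈ KG p N₀ qq := by
  rw [KG, mem_GammaH]
  refine ⟨hγ, ?_⟩
  rw [MonoidHom.mem_ker]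
  have h1 : gRed N₀ qq (dUnit _ ⟨γ, hγ⟩) = 1 := by
    funext s
    apply Units.ext
    rw [gRed_apply]
    show ZMod.castHom (dvd_gLevel N₀ qq s) (ZMod (qq s))
      ((dUnit (gLevel N₀ qq) ⟨γ, hγ⟩ : (ZMod (gLevel N₀ qq))ˣ) : ZMod (gLevel N₀ qq)) = 1
    rw [coe_dUnit, map_intCast]
    have h2 : ((qq s : ℕ) : ℤ) ∣ γ 1 1 - 1 := by
      refine dvd_trans (Int.natCast_dvd_natCast.mpr ?_) h
      rw [gList_prod]
      exact Finset.dvd_prod_of_mem qq (Finset.mem_univ s)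
    have h3 := (ZMod.intCast_zmod_eq_zero_iff_dvd _ _).mpr h2
    push_cast at h3
    exact sub_eq_zero.mp h3
  show (QuotientGroup.mk' (gPowSub p qq)) (gRed N₀ qq (dUnit _ ⟨γ, hγ⟩)) = 1
  rw [h1, map_one]

/-- `h` is `-1/2` modulo the exponent of `Δ`, for the whole family. -/
def IsHalfG (h : ℕ) : Prop := ∀ s : ι, p ^ padicValNat p (qq s - 1) ∣ 2 * h + 1

/-- `Δ` is killed by `2h + 1`. -/
theorem pow_mem_gPowSub_of_half {h : ℕ} (hh : IsHalfG p qq h) (x : ∀ s : ι, (ZMod (qq s))ˣ) :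
    x ^ (2 * h + 1) ∈ gPowSub p qq := by
  rw [gPowSub, Subgroup.mem_pi]
  intro s _
  obtain ⟨c, hc⟩ := hh s
  refine ⟨x s ^ c, ?_⟩
  rw [powMonoidHom_apply, Pi.pow_apply, hc, pow_mul']

theorem pow_mem_KG {h : ℕ} (hh : IsHalfG p qq h) {γ : SL(2, ℤ)}
    (hγ : γ ∈ Gamma0 (gLevel N₀ qq)) : γ ^ (2 * h + 1) ∈ KG p N₀ qq := by
  rw [KG, mem_GammaH]
  refine ⟨Subgroup.pow_mem _ hγ _, ?_⟩
  rw [MonoidHom.mem_ker]
  have h1 : (⟨γ ^ (2 * h + 1), Subgroup.pow_mem _ hγ _⟩ : Gamma0 (gLevel N₀ qq)) =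
      (⟨γ, hγ⟩ : Gamma0 (gLevel N₀ qq)) ^ (2 * h + 1) := rfl
  rw [h1, map_pow, map_pow]
  show (QuotientGroup.mk' (gPowSub p qq)) (gRed N₀ qq (dUnit _ ⟨γ, hγ⟩)) ^ (2 * h + 1) = 1
  rw [← map_pow]
  exact (QuotientGroup.eq_one_iff _).mpr (pow_mem_gPowSub_of_half p qq hh _)

/-- **The twist hypothesis at `K = KG p N₀ qq`.** -/
theorem twistHyp_KG [NeZero (gLevel N₀ qq)] (hinj : Function.Injective qq)
    (hprime : ∀ s, (qq s).Prime) (hcop : ∀ s, Nat.Coprime N₀ (qq s))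
    {h : ℕ} (hh : IsHalfG p qq h) {N' : ℕ} (hN' : gLevel N₀ qq * ∏ s, qq s ∣ N') :
    TwistHyp (KG p N₀ qq) N' (fun ℓ => uOf (gLevel N₀ qq) ℓ ^ h) :=
  Fermat.Agent.S59.TW.H47.twistHyp_of_odd (isMid_KG p N₀ qq) (gList qq)
    (gList_nodup qq hinj) (gList_spec N₀ qq hinj hprime hcop)
    (fun γ hγ hd => mem_KG_of_dvd p N₀ qq hγ hd) h
    (fun γ hγ => pow_mem_KG p N₀ qq hh hγ) (by rw [gList_prod]; exact hN')

/-- **The abstract transfer hypothesis at `K = KG p N₀ qq`.** -/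
theorem embHyp_KG [NeZero (gLevel N₀ qq)] (hinj : Function.Injective qq)
    (hprime : ∀ s, (qq s).Prime) (hcop : ∀ s, Nat.Coprime N₀ (qq s))
    {h : ℕ} (hh : IsHalfG p qq h) {N' : ℕ} (hN' : gLevel N₀ qq * ∏ s, qq s ∣ N') :
    EmbHyp (KG p N₀ qq) N' (fun ℓ => uOf (gLevel N₀ qq) ℓ ^ h) :=
  (twistHyp_KG p N₀ qq hinj hprime hcop hh hN').embHyp

end Gen

/-! ## The level of Ihara avoidance -/

section IA

variable (p : ℕ) (Smin : Finset ℕ) {k r : ℕ} (pv : Fin k → ℕ) (qv : Fin r → ℕ)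

theorem isHalfG_elim {h : ℕ} (h1 : IsHalf p pv h) (h2 : IsHalf p qv h) :
    IsHalfG p (Sum.elim pv qv) h := by
  rintro (i | j)
  · exact h1 i
  · exact h2 j

theorem elim_injective (hpvi : Function.Injective pv) (hqvi : Function.Injective qv)
    (hdisj : ∀ i j, pv i ≠ qv j) : Function.Injective (Sum.elim pv qv) := by
  rintro (i | j) (i' | j') hij
  · exact congrArg Sum.inl (hpvi hij)
  · exact absurd hij (hdisj i j')
  · exact absurd hij.symm (hdisj i' j)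
  · exact congrArg Sum.inr (hqvi hij)

theorem image_elim :
    (Finset.univ : Finset (Fin k ⊕ Fin r)).image (Sum.elim pv qv) =
      Finset.univ.image pv ∪ Finset.univ.image qv := by
  ext q
  simp only [Finset.mem_image, Finset.mem_univ, true_and, Finset.mem_union, Sum.exists,
    Sum.elim_inl, Sum.elim_inr]

/-- `N_{Smin ∪ Piv ∪ Q} = N_{Smin} · ∏_{Piv ∪ Q} q²`. -/
theorem wilesLevel_IA (t : PType) (hpvi : Function.Injective pv) (hqvi : Function.Injective qv)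
    (hdisj : ∀ i j, pv i ≠ qv j) (hpv : ∀ i, pv i ∉ Smin) (hqv : ∀ j, qv j ∉ Smin) :
    wilesLevel p t Smin (Smin ∪ Finset.univ.image pv ∪ Finset.univ.image qv) =
      wilesLevel p t Smin Smin * ∏ s, (Sum.elim pv qv s) ^ 2 := by
  have h1 : (Smin ∪ Finset.univ.image pv ∪ Finset.univ.image qv) \ Smin =
      (Finset.univ : Finset (Fin k ⊕ Fin r)).image (Sum.elim pv qv) := by
    rw [image_elim]
    ext q
    simp only [Finset.mem_sdiff, Finset.mem_union, Finset.mem_image, Finset.mem_univ, true_and]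
    constructor
    · rintro ⟨(h | h) | h, h2⟩
      · exact absurd h h2
      · exact Or.inl h
      · exact Or.inr h
    · rintro (⟨i, rfl⟩ | ⟨j, rfl⟩)
      · exact ⟨Or.inl (Or.inr ⟨i, rfl⟩), hpv i⟩
      · exact ⟨Or.inr ⟨j, rfl⟩, hqv j⟩
  unfold wilesLevel
  rw [h1, Finset.sdiff_self, Finset.prod_empty,
    Finset.prod_image (fun s _ s' _ h => elim_injective pv qv hpvi hqvi hdisj h)]
  ring

theorem gLevel_mul_prod_IA (t : PType) (hpvi : Function.Injective pv)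
    (hqvi : Function.Injective qv) (hdisj : ∀ i j, pv i ≠ qv j) (hpv : ∀ i, pv i ∉ Smin)
    (hqv : ∀ j, qv j ∉ Smin) :
    gLevel (wilesLevel p t Smin Smin) (Sum.elim pv qv) * ∏ s, Sum.elim pv qv s =
      wilesLevel p t Smin (Smin ∪ Finset.univ.image pv ∪ Finset.univ.image qv) := by
  rw [wilesLevel_IA p Smin pv qv t hpvi hqvi hdisj hpv hqv, gLevel, Finset.prod_pow]
  ring

variable [Fact p.Prime]

theorem MIA_ne_zero (hSp : ∀ q ∈ Smin, q.Prime) (hpvp : ∀ i, (pv i).Prime)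
    (hqvp : ∀ j, (qv j).Prime) : MIA p Smin pv qv ≠ 0 := by
  have h1 : wilesLevel p .flat Smin Smin ≠ 0 := by
    unfold wilesLevel
    rw [Finset.sdiff_self, Finset.prod_empty, mul_one, mul_one]
    exact Finset.prod_ne_zero_iff.mpr fun q hq' => (hSp q (Finset.mem_of_mem_erase hq')).ne_zero
  refine gLevel_ne_zero _ _ h1 ?_
  rintro (i | j)
  · exact hpvp i
  · exact hqvp j

/-- **The twist hypothesis at `K = K_IA`**, for the twisted operators `⟨ℓ⟩^h T_ℓ` of `IsIAAction`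
with `h` half at the pivots and at the Taylor–Wiles primes. -/
theorem twistHyp_KIA (hpS : p ∈ Smin) (hSp : ∀ q ∈ Smin, q.Prime)
    (hpvi : Function.Injective pv) (hqvi : Function.Injective qv)
    (hdisj : ∀ i j, pv i ≠ qv j)
    (hpv : ∀ i, (pv i).Prime ∧ pv i ∉ Smin) (hqv : ∀ j, (qv j).Prime ∧ qv j ∉ Smin)
    {h : ℕ} (h1 : IsHalf p pv h) (h2 : IsHalf p qv h) :
    TwistHyp (KIA p Smin pv qv)
      (wilesLevel p .flat Smin (Smin ∪ Finset.univ.image pv ∪ Finset.univ.image qv))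
      (fun ℓ => uOf (MIA p Smin pv qv) ℓ ^ h) := by
  haveI : NeZero (gLevel (wilesLevel p .flat Smin Smin) (Sum.elim pv qv)) :=
    ⟨MIA_ne_zero p Smin pv qv hSp (fun i => (hpv i).1) (fun j => (hqv j).1)⟩
  refine twistHyp_KG p (wilesLevel p .flat Smin Smin) (Sum.elim pv qv)
    (elim_injective pv qv hpvi hqvi hdisj) ?_ ?_ (isHalfG_elim p pv qv h1 h2) ?_
  · rintro (i | j)
    · exact (hpv i).1
    · exact (hqv j).1
  · rintro (i | j)
    · exact coprime_wilesLevel p .flat Smin hpS hSp (hpv i).1 (hpv i).2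
    · exact coprime_wilesLevel p .flat Smin hpS hSp (hqv j).1 (hqv j).2
  · rw [gLevel_mul_prod_IA p Smin pv qv .flat hpvi hqvi hdisj (fun i => (hpv i).2)
      (fun j => (hqv j).2)]

/-- The same with the pivot set `Piv = image pv` of `Spec3`. -/
theorem twistHyp_KIA' (hpS : p ∈ Smin) (hSp : ∀ q ∈ Smin, q.Prime) {Piv : Finset ℕ}
    (hpvi : Function.Injective pv) (hpvPiv : Finset.univ.image pv = Piv)
    (hPivp : ∀ q ∈ Piv, q.Prime ∧ q ∉ Smin) (hqvi : Function.Injective qv)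
    (hqv : ∀ j, (qv j).Prime ∧ qv j ∉ Smin ∪ Piv)
    {h : ℕ} (h1 : IsHalf p pv h) (h2 : IsHalf p qv h) :
    TwistHyp (KIA p Smin pv qv)
      (wilesLevel p .flat Smin (Smin ∪ Piv ∪ Finset.univ.image qv))
      (fun ℓ => uOf (MIA p Smin pv qv) ℓ ^ h) := by
  subst hpvPiv
  have hmem : ∀ i, pv i ∈ Finset.univ.image pv := fun i =>
    Finset.mem_image.mpr ⟨i, Finset.mem_univ _, rfl⟩
  refine twistHyp_KIA p Smin pv qv hpS hSp hpvi hqvi ?_ (fun i => hPivp _ (hmem i))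
    (fun j => ⟨(hqv j).1, fun hj => (hqv j).2 (Finset.mem_union_left _ hj)⟩) h1 h2
  intro i j hij
  exact (hqv j).2 (Finset.mem_union_right _ (hij ▸ hmem i))

end IA

/-! ## In the context of `Spec3` -/

section Spec3

open IsLocalRing Fermat.Agent.S59.TW.H959 Fermat.Agent.S38.IA

variable {p : ℕ} [Fact p.Prime]
  {𝒪 : Type} [CommRing 𝒪] [IsDomain 𝒪] [IsDiscreteValuationRing 𝒪]
  [IsAdicComplete (maximalIdeal 𝒪) 𝒪]
  {ρbar : ResidualGaloisRep (ResidueField 𝒪)} {Smin Piv : Finset ℕ}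
  {k r : ℕ} {pv : Fin k → ℕ} {qv : Fin r → ℕ}

/-- **The twist hypothesis at `K_IA` from the hypotheses of the leaves of `Spec3`.** -/
theorem twistHyp_KIA_of_spec (hR : ResidualHyp p 𝒪 ρbar Smin)
    (hPiv : IsPivotSet p ρbar Smin Piv) (hpvi : Function.Injective pv)
    (hpvPiv : Finset.univ.image pv = Piv) {n : ℕ} (hq : IsTWSet p ρbar (Smin ∪ Piv) n qv)
    {h : ℕ} (h1 : IsHalf p pv h) (h2 : IsHalf p qv h) :
    TwistHyp (KIA p Smin pv qv)
      (wilesLevel p .flat Smin (Smin ∪ Piv ∪ Finset.univ.image qv))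
      (fun ℓ => uOf (MIA p Smin pv qv) ℓ ^ h) :=
  twistHyp_KIA' p Smin pv qv hR.hpSmin hR.hSmin hpvi hpvPiv
    (fun q hqP => ⟨(hPiv q hqP).1, (hPiv q hqP).2.1⟩) hq.1
    (fun j => ⟨(hq.2.1 j).1, (hq.2.1 j).2.1⟩) h1 h2

/-- The level `M_IA` is nonzero. -/
theorem MIA_ne_zero_of_spec (hR : ResidualHyp p 𝒪 ρbar Smin)
    (hPiv : IsPivotSet p ρbar Smin Piv) (hpvPiv : Finset.univ.image pv = Piv) {n : ℕ}
    (hq : IsTWSet p ρbar (Smin ∪ Piv) n qv) : MIA p Smin pv qv ≠ 0 :=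
  MIA_ne_zero p Smin pv qv hR.hSmin
    (fun i => (hPiv (pv i) (hpvPiv ▸ Finset.mem_image.mpr ⟨i, Finset.mem_univ _, rfl⟩)).1)
    (fun j => (hq.2.1 j).1)

/-- `q² ∥ N_{Smin ∪ Piv ∪ Q}` for every pivot `q`. -/
theorem factorization_wilesLevel_pivot (hR : ResidualHyp p 𝒪 ρbar Smin)
    (hPiv : IsPivotSet p ρbar Smin Piv) (hpvi : Function.Injective pv)
    (hpvPiv : Finset.univ.image pv = Piv) {n : ℕ} (hq : IsTWSet p ρbar (Smin ∪ Piv) n qv)
    (i : Fin k) :
    (wilesLevel p .flat Smin (Smin ∪ Piv ∪ Finset.univ.image qv)).factorization (pv i) = 2 := by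
  classical
  subst hpvPiv
  have hmem : ∀ i, pv i ∈ Finset.univ.image pv := fun i =>
    Finset.mem_image.mpr ⟨i, Finset.mem_univ _, rfl⟩
  have hpvp : ∀ i, (pv i).Prime ∧ pv i ∉ Smin := fun i =>
    ⟨(hPiv _ (hmem i)).1, (hPiv _ (hmem i)).2.1⟩
  have hqvp : ∀ j, (qv j).Prime ∧ qv j ∉ Smin := fun j =>
    ⟨(hq.2.1 j).1, fun hj => (hq.2.1 j).2.1 (Finset.mem_union_left _ hj)⟩
  have hdisj : ∀ i j, pv i ≠ qv j := fun i j hij =>
    (hq.2.1 j).2.1 (Finset.mem_union_right _ (hij ▸ hmem i))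
  have hinj := elim_injective pv qv hpvi hq.1 hdisj
  have hprime : ∀ s, (Sum.elim pv qv s).Prime := by
    rintro (i | j)
    · exact (hpvp i).1
    · exact (hqvp j).1
  rw [wilesLevel_IA p Smin pv qv .flat hpvi hq.1 hdisj (fun i => (hpvp i).2)
    (fun j => (hqvp j).2)]
  have hN₀ : wilesLevel p .flat Smin Smin ≠ 0 := by
    unfold wilesLevel
    rw [Finset.sdiff_self, Finset.prod_empty, mul_one, mul_one]
    exact Finset.prod_ne_zero_iff.mpr fun q hq' =>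
      (hR.hSmin q (Finset.mem_of_mem_erase hq')).ne_zero
  have hP0 : (∏ s, (Sum.elim pv qv s) ^ 2) ≠ 0 :=
    Finset.prod_ne_zero_iff.mpr fun s _ => pow_ne_zero _ (hprime s).ne_zero
  rw [Nat.factorization_mul hN₀ hP0, Finsupp.add_apply]
  have h0 : (wilesLevel p .flat Smin Smin).factorization (pv i) = 0 := by
    rw [Nat.factorization_eq_zero_iff]
    right; left
    exact fun hd => (hpvp i).2 (mem_of_dvd_wilesLevel p .flat Smin hR.hpSmin hR.hSmin
      (hpvp i).1 hd)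
  rw [h0, zero_add, Nat.factorization_prod (fun s _ => pow_ne_zero _ (hprime s).ne_zero),
    Finset.sum_apply']
  rw [Finset.sum_eq_single (Sum.inl i : Fin k ⊕ Fin r)]
  · rw [Sum.elim_inl, Nat.factorization_pow, Finsupp.smul_apply,
      (hpvp i).1.factorization_self, smul_eq_mul, mul_one]
  · intro s _ hs
    rw [Nat.factorization_pow, Finsupp.smul_apply, smul_eq_mul, mul_eq_zero]
    right
    rw [Nat.factorization_eq_zero_iff]
    right; left
    intro hd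
    have := (Nat.prime_dvd_prime_iff_eq (hpvp i).1 (hprime s)).mp hd
    exact hs (hinj (by rw [Sum.elim_inl]; exact this.symm))
  · intro h
    exact absurd (Finset.mem_univ _) h

end Spec3

end Fermat.Agent.S38.H47
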