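import Fermat.Agent.S38.H47.NUofS36
import Fermat.Agent.Lib.Ribet.H404.ResMod
import Fermat.Agent.S59.H96.EigenChar

/-!
# Row HARD, cell HECKE / (NU): (NU) at a point of a Hecke–Galois datum   (helper47)

Consumer-side packaging of `NUofS36.lean` for the HECKE assembler.

* `range_le_of_T_h47` : a character of the Hecke algebra away from `S ⊇ primes(M)` has its range
  in every subring of `ℂ` containing its values at the `T_ℓ`.
* `eigenCharAway` : the eigencharacter away from `S` of a normalized eigenform.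
* `not_isUnipotentOnInertiaAt_of_char` : **(NU), interface form.**  `x : T → 𝒪'` a point of the
  datum `H` (level `N`, away from `S`), `chiF : heckeAlgebra N 2 S → ℂ` a complex character and
  `j : chiF.range → 𝒪'` with `j ∘ chiF = x ∘ π` ("`chiF` is `x` read in `ℂ`"), `g` a newform of
  level `M` (primes of `M` in `S`) with `a_ℓ(g) = chiF(T_ℓ)` for the primes `ℓ ∉ S`, `v_q(M) = 2`,
  `q ≠ p`.  Then `H.ρ ⊗_x 𝒪'` is NOT unipotent on inertia at `q`.
  The pair `(g, v_q(M) = 2)` is the output of TW-NS (`S59.TW.H54.twist_exists_newform`,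
  `S59.TW.H174.exists_newform_factorization_eq_two`) for the twist `F` whose good eigenvalues are
  `chiF(T_ℓ)`.
* `exists_char_of_point` : **DICT-0.**  Every point `χ : heckeAlgebra N 2 S → D` (`D` a domain of
  characteristic `0`) can be read in `ℂ`: there are a normalized eigenform `F` of level `N`,
  `chiF` with `chiF(T_ℓ) = a_ℓ(F)` and `j : chiF.range → D` with `j ∘ chiF = χ`.
-/

set_option autoImplicit false

open Polynomial IsLocalRing CuspForm CongruenceSubgroup ModularFormClass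

namespace Fermat.Agent.S38.H47

section Range

variable {M : ℕ} [NeZero M] {S : Set ℕ}

/-- A character of the Hecke algebra away from `S ⊇ primes(M)` takes its values in every subring
of `ℂ` containing its values at the `T_ℓ`. -/
theorem range_le_of_T_h47 (hMS : ∀ q : ℕ, q.Prime → q ∣ M → q ∈ S)
    (χ : heckeAlgebra M 2 S →+* ℂ) (R : Subring ℂ)
    (h : ∀ (ℓ : ℕ) (hℓ : ℓ.Prime) (hℓM : ¬ ℓ ∣ M) (hℓS : ℓ ∉ S),
      χ (heckeAlgebra.T hℓ hℓM hℓS) ∈ R) :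
    χ.range ≤ R := by
  rintro _ ⟨⟨y, hy⟩, rfl⟩
  have key : ∀ (y : Module.End ℂ (CuspForm (Gamma0 M) 2))
      (hy : y ∈ Algebra.adjoin ℤ (heckeGenerators M 2 S)),
      χ (⟨y, hy⟩ : heckeAlgebra M 2 S) ∈ R := by
    intro y hy
    induction hy using Algebra.adjoin_induction with
    | mem z hz =>
      rcases hz with ⟨ℓ, hℓ, hℓM, hℓS, rfl⟩ | ⟨q, hqM, hq, hqS, rfl⟩
      · exact h ℓ hℓ hℓM hℓS
      · exact absurd (hMS q hq hqM) hqS
    | algebraMap r =>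
      have e : (⟨algebraMap ℤ (Module.End ℂ (CuspForm (Gamma0 M) 2)) r,
          Subalgebra.algebraMap_mem _ r⟩ : heckeAlgebra M 2 S)
          = ((r : ℤ) : heckeAlgebra M 2 S) := by
        apply Subtype.ext
        simp
      rw [e, map_intCast]
      exact intCast_mem R r
    | add a b ha hb iha ihb =>
      have e : (⟨a + b, add_mem ha hb⟩ : heckeAlgebra M 2 S)
          = (⟨a, ha⟩ : heckeAlgebra M 2 S) + ⟨b, hb⟩ := rfl
      rw [e, map_add]
      exact add_mem iha ihb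
    | mul a b ha hb iha ihb =>
      have e : (⟨a * b, mul_mem ha hb⟩ : heckeAlgebra M 2 S)
          = (⟨a, ha⟩ : heckeAlgebra M 2 S) * ⟨b, hb⟩ := rfl
      rw [e, map_mul]
      exact mul_mem iha ihb
  exact key y hy

/-- The eigencharacter away from `S` of a normalized eigenform. -/
noncomputable def eigenCharAway {g : CuspForm (Gamma0 M) 2} (hg : g.IsNormalizedEigenform)
    (S : Set ℕ) : heckeAlgebra M 2 S →+* ℂ :=
  (Fermat.Agent.Lib.Ribet.H404.eigenChar hg).comp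
    (Subalgebra.inclusion (heckeAlgebra_mono (Set.empty_subset S))).toRingHom

theorem eigenCharAway_T {g : CuspForm (Gamma0 M) 2} (hg : g.IsNormalizedEigenform)
    {ℓ : ℕ} (hℓ : ℓ.Prime) (hℓM : ¬ ℓ ∣ M) (hℓS : ℓ ∉ S) :
    eigenCharAway hg S (heckeAlgebra.T hℓ hℓM hℓS) = qCoeff g ℓ := by
  have e : (Subalgebra.inclusion (heckeAlgebra_mono (N := M) (k := 2) (Set.empty_subset S))).toRingHom
      (heckeAlgebra.T hℓ hℓM hℓS) = heckeAlgebra.T hℓ hℓM (Set.notMem_empty _) :=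
    Subtype.ext rfl
  rw [eigenCharAway, RingHom.comp_apply, e, Fermat.Agent.Lib.Ribet.H404.eigenChar_T]

end Range

section Main

variable {N : ℕ} [NeZero N] {S : Finset ℕ}
  {𝒪 : Type} [CommRing 𝒪] [IsDomain 𝒪] [IsDiscreteValuationRing 𝒪]
  [IsAdicComplete (maximalIdeal 𝒪) 𝒪]
  {θ : CuspForm.heckeAlgebra N 2 (↑S : Set ℕ) →+* ResidueField 𝒪}
  {T : Type} [CommRing T] [IsLocalRing T] [IsNoetherianRing T]
  [IsAdicComplete (maximalIdeal T) T] [Algebra 𝒪 T] [IsLocalHom (algebraMap 𝒪 T)]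
  [Module.Finite 𝒪 T] [Module.Free 𝒪 T]

/-- **(NU) at a point, interface form.** -/
theorem not_isUnipotentOnInertiaAt_of_char
    (h36 : Fermat.Agent.S58.S36Statement)
    (H : CuspForm.HeckeGaloisRepDatum N (↑S : Set ℕ) 𝒪 θ T)
    (p : ℕ) [Fact p.Prime] (hp2 : p ≠ 2) (hpS : p ∈ S)
    (hNS : ∀ q : ℕ, q.Prime → q ∣ N → q ∈ S)
    {𝒪' : Type} [CommRing 𝒪'] [IsDomain 𝒪'] [IsDiscreteValuationRing 𝒪']
    [IsAdicComplete (maximalIdeal 𝒪') 𝒪'] [Finite (ResidueField 𝒪')] [CharZero 𝒪']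
    (hp𝒪' : (p : 𝒪') ∈ maximalIdeal 𝒪')
    (x : T →+* 𝒪') (hx : IsLocalHom x)
    (chiF : CuspForm.heckeAlgebra N 2 (↑S : Set ℕ) →+* ℂ)
    (j : chiF.range →+* 𝒪')
    (hj : ∀ t : CuspForm.heckeAlgebra N 2 (↑S : Set ℕ), j (chiF.rangeRestrict t) = x (H.π t))
    {M : ℕ} [NeZero M] {g : CuspForm (Gamma0 M) 2} (hg : g.IsNewform)
    (hMS : ∀ q : ℕ, q.Prime → q ∣ M → q ∈ S)
    (hgF : ∀ (ℓ : ℕ) (hℓ : ℓ.Prime) (hℓN : ¬ ℓ ∣ N) (hℓS : ℓ ∉ (↑S : Set ℕ)),
      qCoeff g ℓ = chiF (CuspForm.heckeAlgebra.T hℓ hℓN hℓS))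
    {q : ℕ} (hq : q.Prime) (hqp : q ≠ p) (hq2 : M.factorization q = 2) :
    ¬ (H.ρ.baseChangeAlong x hx).IsUnipotentOnInertiaAt q := by
  classical
  have hMS' : ∀ q : ℕ, q.Prime → q ∣ M → q ∈ (↑S : Set ℕ) := fun q hq hqM =>
    Finset.mem_coe.mpr (hMS q hq hqM)
  -- the character of `g`
  set chig : heckeAlgebra M 2 (↑S : Set ℕ) →+* ℂ := eigenCharAway hg.isNormalizedEigenform ↑S
    with hchig_def
  have hchig : ∀ (ℓ : ℕ) (hℓ : ℓ.Prime) (hℓM : ¬ ℓ ∣ M) (hℓS : ℓ ∉ (↑S : Set ℕ)),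
      chig (heckeAlgebra.T hℓ hℓM hℓS) = qCoeff g ℓ := fun ℓ hℓ hℓM hℓS =>
    eigenCharAway_T hg.isNormalizedEigenform hℓ hℓM hℓS
  have hle : chig.range ≤ chiF.range := by
    refine range_le_of_T_h47 hMS' chig chiF.range ?_
    intro ℓ hℓ hℓM hℓS
    have hℓN : ¬ ℓ ∣ N := fun h => hℓS (Finset.mem_coe.mpr (hNS ℓ hℓ h))
    rw [hchig ℓ hℓ hℓM hℓS, hgF ℓ hℓ hℓN hℓS]
    exact ⟨_, rfl⟩
  let iota : chig.range →+* 𝒪' := j.comp (Subring.inclusion hle)
  refine not_isUnipotentOnInertiaAt_of_newform h36 H p hp2 hp𝒪' x hx hg S (Finset.Subset.refl S)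
    hpS hNS hMS chig hchig iota ?_ hq hqp hq2
  intro ℓ hℓ hℓN hℓM hℓS hℓS'
  rw [← hj]
  show j (chiF.rangeRestrict (heckeAlgebra.T hℓ hℓN hℓS))
    = j (Subring.inclusion hle (chig.rangeRestrict (heckeAlgebra.T hℓ hℓM hℓS')))
  congr 1
  apply Subtype.ext
  show chiF (heckeAlgebra.T hℓ hℓN hℓS) = chig (heckeAlgebra.T hℓ hℓM hℓS')
  rw [hchig ℓ hℓ hℓM hℓS', hgF ℓ hℓ hℓN hℓS]

end Main

section Dict

variable {N : ℕ} [NeZero N]

/-- If `B` is integral over `ℤ`, `χ : B → D` (`D` a domain of characteristic `0`) and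
`χ' : B → ℂ` are characters with `ker χ' ≤ ker χ`, then `ker χ ≤ ker χ'`. -/
theorem ker_le_of_ker_le_h47 {B : Type*} [CommRing B] [Algebra.IsIntegral ℤ B]
    {D : Type*} [CommRing D] [IsDomain D] [CharZero D]
    (χ : B →+* D) (χ' : B →+* ℂ) (hker : RingHom.ker χ' ≤ RingHom.ker χ) :
    RingHom.ker χ ≤ RingHom.ker χ' := by
  intro c hc
  rw [RingHom.mem_ker] at hc ⊢
  by_contra hx
  obtain ⟨P, hPmonic, hP⟩ := Algebra.IsIntegral.isIntegral (R := ℤ) c
  have hP0 : P ≠ 0 := hPmonic.ne_zero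
  obtain ⟨Q, hPQ, hQ⟩ := Polynomial.exists_eq_pow_rootMultiplicity_mul_and_not_dvd P hP0 0
  rw [map_zero, sub_zero] at hPQ hQ
  have hQ0 : Q.eval 0 ≠ 0 := by
    intro h0
    apply hQ
    have : (X - C (0 : ℤ)) ∣ Q := Polynomial.dvd_iff_isRoot.mpr h0
    simpa using this
  have e1 : ∀ R : ℤ[X], χ' (eval₂ (algebraMap ℤ B) c R) = eval₂ (Int.castRingHom ℂ) (χ' c) R := by
    intro R
    rw [Polynomial.hom_eval₂]
    congr 1
    exact RingHom.ext_int _ _
  have e2 : ∀ R : ℤ[X], χ (eval₂ (algebraMap ℤ B) c R) = eval₂ (Int.castRingHom D) (χ c) R := by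
    intro R
    rw [Polynomial.hom_eval₂]
    congr 1
    exact RingHom.ext_int _ _
  have h1 := e1 P
  rw [hP, map_zero, hPQ, eval₂_mul, eval₂_pow, eval₂_X] at h1
  have h2 : eval₂ (Int.castRingHom ℂ) (χ' c) Q = 0 := by
    rcases mul_eq_zero.mp h1.symm with h | h
    · exact absurd h (pow_ne_zero _ hx)
    · exact h
  have h3 : eval₂ (algebraMap ℤ B) c Q ∈ RingHom.ker χ := by
    apply hker
    rw [RingHom.mem_ker, e1 Q, h2]
  rw [RingHom.mem_ker, e2 Q, hc] at h3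
  have h4 : eval₂ (Int.castRingHom D) 0 Q = ((Q.eval 0 : ℤ) : D) := by
    rw [Polynomial.eval₂_at_zero, Polynomial.coeff_zero_eq_eval_zero]
    rfl
  rw [h4] at h3
  exact hQ0 (by exact_mod_cast h3)

/-- **DICT-0.**  A point of the Hecke algebra with values in a domain of characteristic `0` can
be read in `ℂ`: it is the eigencharacter of a normalized eigenform of the same level, up to an
identification `j` of the coefficient rings. -/
theorem exists_char_of_point (S : Set ℕ) {D : Type*} [CommRing D] [IsDomain D] [CharZero D]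
    (χ : heckeAlgebra N 2 S →+* D) :
    ∃ (F : CuspForm (Gamma0 N) 2) (chiF : heckeAlgebra N 2 S →+* ℂ) (j : chiF.range →+* D),
      F.IsNormalizedEigenform ∧
      (∀ (ℓ : ℕ) (hℓ : ℓ.Prime) (hℓN : ¬ ℓ ∣ N) (hℓS : ℓ ∉ S),
        chiF (heckeAlgebra.T hℓ hℓN hℓS) = qCoeff F ℓ) ∧
      (∀ t : heckeAlgebra N 2 S, j (chiF.rangeRestrict t) = χ t) ∧
      Function.Injective j := by
  classical
  have := Fermat.Agent.Lib.Newform.H863.finiteDimensional_cuspForm N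
  have : Module.Finite ℤ (heckeAlgebra N 2 S) := Fermat.Agent.S22.result N 2 S
  have : Algebra.IsIntegral ℤ (heckeAlgebra N 2 S) := inferInstance
  have : (RingHom.ker χ).IsPrime := RingHom.ker_isPrime χ
  obtain ⟨h, χ', hh, hχ', hker⟩ := Fermat.Agent.S49.exists_eigenvector_ker_le
    (K := ℂ) (V := CuspForm (Gamma0 N) 2)
    ((heckeAlgebra N 2 S).val.toRingHom) Subtype.val_injective (RingHom.ker χ)
  have hker' : RingHom.ker χ ≤ RingHom.ker χ' := ker_le_of_ker_le_h47 χ χ' hker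
  let lam : ℕ → ℂ := fun ℓ =>
    if hc : ℓ.Prime ∧ ¬ ℓ ∣ N ∧ ℓ ∉ S then χ' (heckeAlgebra.T hc.1 hc.2.1 hc.2.2) else 0
  have hlam : ∀ (ℓ : ℕ) (hℓ : ℓ.Prime) (hℓN : ¬ ℓ ∣ N) (hℓS : ℓ ∉ S),
      lam ℓ = χ' (heckeAlgebra.T hℓ hℓN hℓS) := by
    intro ℓ hℓ hℓN hℓS
    simp only [lam, dif_pos (⟨hℓ, hℓN, hℓS⟩ : ℓ.Prime ∧ ¬ ℓ ∣ N ∧ ℓ ∉ S)]
  obtain ⟨F, hF, hFl⟩ := Fermat.Agent.Lib.Newform.H863.exists_normalizedEigenform_of_eigenvector
    S lam h hh (fun ℓ hℓ hℓN hℓS => by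
      have h1 := hχ' (heckeAlgebra.T hℓ hℓN hℓS)
      rw [hlam ℓ hℓ hℓN hℓS]
      exact h1)
  have hsurj : Function.Surjective χ'.rangeRestrict := χ'.rangeRestrict_surjective
  have hkr : RingHom.ker χ'.rangeRestrict ≤ RingHom.ker χ := by
    intro t ht
    apply hker
    rw [RingHom.mem_ker] at ht ⊢
    have := congrArg Subtype.val ht
    simpa using this
  refine ⟨F, χ', χ'.rangeRestrict.liftOfSurjective hsurj ⟨χ, hkr⟩, hF, ?_, ?_, ?_⟩
  · intro ℓ hℓ hℓN hℓS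
    rw [hFl ℓ hℓ hℓN hℓS, hlam ℓ hℓ hℓN hℓS]
  · intro t
    exact RingHom.liftOfSurjective_comp_apply χ'.rangeRestrict hsurj ⟨χ, hkr⟩ t
  · rw [injective_iff_map_eq_zero]
    rintro ⟨_, t, rfl⟩ ht
    have e : (⟨χ' t, t, rfl⟩ : χ'.range) = χ'.rangeRestrict t := rfl
    rw [e, RingHom.liftOfSurjective_comp_apply χ'.rangeRestrict hsurj ⟨χ, hkr⟩ t] at ht
    have : t ∈ RingHom.ker χ' := hker' (RingHom.mem_ker.mpr ht)
    apply Subtype.ext
    exact RingHom.mem_ker.mp this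

end Dict

end Fermat.Agent.S38.H47
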