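import Fermat.Agent.S38.H473.PtGlue
import Fermat.Agent.S38.H227.NuNew
import Fermat.Agent.S38.H47.NUPoint
import Fermat.Agent.S38.H47.TwistHypIA
import Fermat.Agent.S38.H47.NiceLift
import Fermat.Agent.S59.TW.H324.CuspPkg

/-!
# Row HARD, cell HECKE, leaf IA-NU: FINAL ASSEMBLY   (helper47)

* `iaNuPt : S58.S36Statement → H473.IANuPtStatement` : the POINT-LEVEL form of IA-NU
  (`S38/H473/PtSpec.lean`, helper473): a local `p`-adic point of `T_Q` through the annihilator of
  `V / chiRelIA χ V` (`χ` a pivot character) is not unipotent on inertia at any pivot.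
* `iaNu : S58.S36Statement → IAFreeStatement → IANuStatement` : the leaf IA-NU of layer 3
  (`S38/IA/Hecke/Spec3.lean` v2, helper3), VERBATIM.

Chain (all compiled): SUPP-REL `H227.suppRel` (the point satisfies the relations of the
`t_ℓ = ⟨ℓ⟩^h T_ℓ`, `⟨d⟩` on the parabolic classes, the `⟨d⟩` replaced by `χ(d)`), the twist
dictionary + TW-NS `H227.nuNew` (the point is the good eigen-system of a newform of level `M₁`
with `v_q(M₁) = 2`), the twist hypothesis at `K_IA` (`twistHyp_KIA_of_spec`), the lifts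
`d ≡ 1 mod N₀` of the diamond indices (`NiceLift.lean`), cuspidality of the localised part
(`S59.TW.H324.isLocPart_parabolic_of_pkg`), the frozen S36 (`not_isUnipotentOnInertiaAt_of_char`),
and the glue from the points to the module `H473.iaNu_of_pt` (helper473).
-/

set_option autoImplicit false
set_option linter.unusedSectionVars false
set_option linter.unusedVariables false
set_option linter.style.haveILetI false

open Polynomial IsLocalRing CongruenceSubgroup
open scoped MatrixGroups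

namespace Fermat.Agent.S38.H47

open Fermat.Agent.S59.Arch Fermat.Agent.S59.TW.H959 Fermat.Agent.S59.TW Fermat.Agent.S59.H765
open Fermat.Agent.S59.TW.H653 Fermat.Agent.S59.TW.Aut Fermat.Agent.S59.TW.H658
open Fermat.Agent.S38.IA Fermat.Agent.S38.IA.Hecke
open CuspForm

/-- A ring homomorphism from a discrete valuation ring of residue characteristic `p` to a domain
of characteristic `0` is injective. -/
theorem injective_of_dvr_h47 {A R : Type*} [CommRing A] [IsDomain A] [IsDiscreteValuationRing A]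
    [CommRing R] [IsDomain R] [CharZero R] {p : ℕ} (hp0 : p ≠ 0)
    (hp : (p : A) ∈ maximalIdeal A) (f : A →+* R) : Function.Injective f := by
  rw [RingHom.injective_iff_ker_eq_bot]
  by_contra hne
  have hprime : (RingHom.ker f).IsPrime := RingHom.ker_isPrime f
  have hmax : (RingHom.ker f).IsMaximal := hprime.isMaximal hne
  have h1 : RingHom.ker f = maximalIdeal A := IsLocalRing.eq_maximalIdeal hmax
  have hpk : (p : A) ∈ RingHom.ker f := h1 ▸ hp
  rw [RingHom.mem_ker, map_natCast] at hpk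
  exact hp0 (Nat.cast_eq_zero.mp hpk)

/-- **IA-NU, pointwise**, from the frozen S36. -/
theorem iaNuPt (h36 : Fermat.Agent.S58.S36Statement) :
    Fermat.Agent.S38.H473.IANuPtStatement := by
  intro p hpF hp5 𝒪 _ _ _ _ _ _ ρbar Smin hR hflat Piv hPiv k pv hpv hpvPiv n r qv hq hNQ PQ α hα
    V h a hV hhalf₁ hhalf₂ ha
  classical
  obtain ⟨hpvP, hpvd, hqvP, hsurj, hMne, hsig, hM⟩ :=
    Fermat.Agent.S38.H473.ia_basic_facts hR hPiv hpv hpvPiv hq
  haveI : NeZero (MIA p Smin pv qv) := ⟨hMne⟩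
  have hH := twistHyp_KIA_of_spec hR hPiv hpv hpvPiv hq hhalf₁ hhalf₂
  have hvfac := factorization_wilesLevel_pivot hR hPiv hpv hpvPiv hq
  subst hpvPiv
  intro χ hχ P hP hthrough q hqPiv
  obtain ⟨i, -, rfl⟩ := Finset.mem_image.mp hqPiv
  -- the standing facts
  have hpvMem : ∀ i, pv i ∈ Finset.univ.image pv := fun i =>
    Finset.mem_image_of_mem pv (Finset.mem_univ i)
  have hpvS : ∀ i, pv i ∉ Smin := fun i => (hPiv (pv i) (hpvMem i)).2.1
  have hqvS : ∀ j, qv j ∉ Smin := fun j hj => (hq.2.1 j).2.1 (Finset.mem_union_left _ hj)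
  have hdisj : ∀ i j, pv i ≠ qv j := fun i j hij =>
    (hq.2.1 j).2.1 (Finset.mem_union_right _ (hij ▸ hpvMem i))
  have hinj : Function.Injective (Sum.elim pv qv) := elim_injective pv qv hpv hq.1 hdisj
  have hprime : ∀ s, (Sum.elim pv qv s).Prime := by
    rintro (i | j)
    · exact hpvP i
    · exact hqvP j
  have hN₀ : wilesLevel p .flat Smin Smin ≠ 0 := wilesLevel_ne_zero hpF.out hR.hSmin hR.hSmin
  have hcop : ∀ s, Nat.Coprime (wilesLevel p .flat Smin Smin) (Sum.elim pv qv s) := by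
    intro s
    refine Nat.Coprime.symm ((Nat.Prime.coprime_iff_not_dvd (hprime s)).mpr fun hd => ?_)
    have hmem : Sum.elim pv qv s ∈ Smin :=
      mem_of_prime_dvd_wilesLevel hpF.out hR.hSmin hR.hSmin hR.hpSmin (Finset.Subset.refl _)
        _ (hprime s) hd
    rcases s with i | j
    · exact hpvS i hmem
    · exact hqvS j hmem
  have hsub : Smin ⊆ Smin ∪ Finset.univ.image pv ∪ Finset.univ.image qv :=
    Finset.subset_union_left.trans Finset.subset_union_left
  have hSigP : ∀ q ∈ Smin ∪ Finset.univ.image pv ∪ Finset.univ.image qv, q.Prime := by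
    intro q hq'
    rcases Finset.mem_union.mp hq' with h' | h'
    · rcases Finset.mem_union.mp h' with h'' | h''
      · exact hR.hSmin q h''
      · exact (hPiv q h'').1
    · obtain ⟨j, -, rfl⟩ := Finset.mem_image.mp h'
      exact hqvP j
  have hK : IsMid (MIA p Smin pv qv) (KIA p Smin pv qv) := isMid_KIA p Smin pv qv
  haveI : (KIA p Smin pv qv).FiniteIndex :=
    Fermat.Agent.S59.TW.H564.finiteIndex_of_Gamma1_le (M := MIA p Smin pv qv) hK.ge
  -- the nice lifts of the diamond indices at the pivots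
  choose dv hdv hdv1 using fun a₁ : (∀ i : Fin k, (ZMod (pv i))ˣ) =>
    exists_niceLift (wilesLevel p .flat Smin Smin) (Sum.elim pv qv) hN₀ hinj hprime hcop
      (pairU a₁ (1 : ∀ j : Fin r, (ZMod (qv j))ˣ))
  have hdia : ∀ (a₁ : ∀ i : Fin k, (ZMod (pv i))ˣ) (y : XIA p Smin pv qv 𝒪),
      diamondU hK (dv a₁) y = diaIA p Smin pv qv 𝒪 a₁ 1 y := fun a₁ y =>
    diamondU_eq_gLift p (wilesLevel p .flat Smin Smin) (Sum.elim pv qv) hsurj (hdv a₁) y
  -- parabolic classes
  have hpar : ∀ v ∈ V, ModularCurve.Period.IsParabolicHom (KIA p Smin pv qv) v :=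
    Fermat.Agent.S59.TW.H324.isLocPart_parabolic_of_pkg p 𝒪 ρbar Smin hR .flat _ hsub hSigP PQ
      hMne hK hV
  have hVd : ∀ (a₁ : ∀ i : Fin k, (ZMod (pv i))ˣ), ∀ v ∈ V, diamondU hK (dv a₁) v ∈ V := by
    intro a₁ v hv
    rw [hdia a₁ v]
    exact diaIA_mem hV a₁ 1 hv
  -- the point as an `𝒪`-algebra homomorphism
  letI : Algebra 𝒪 P.O := (P.χ.comp (algebraMap 𝒪 PQ.T)).toAlgebra
  let x : PQ.T →ₐ[𝒪] P.O := { P.χ with commutes' := fun _ => rfl }
  have hxinj : Function.Injective (algebraMap 𝒪 P.O) :=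
    injective_of_dvr_h47 hpF.out.ne_zero hR.hp𝒪 _
  -- SUPP-REL
  have hle : Fermat.Agent.S38.H227.chiRel hK dv (fun a₁ => χ a₁) V ≤
      chiRelIA p Smin pv qv χ V := by
    unfold Fermat.Agent.S38.H227.chiRel chiRelIA
    refine Submodule.span_le.mpr ?_
    rintro w ⟨a₁, y, hy, rfl⟩
    refine Submodule.subset_span ⟨a₁, y, hy, ?_⟩
    rw [hdia a₁ y]
  have hrel := Fermat.Agent.S38.H227.suppRel hK hH.dvd
    (fun ℓ => uOf (MIA p Smin pv qv) ℓ ^ h)
    (↑(Smin ∪ Finset.univ.image pv ∪ Finset.univ.image qv) : Set ℕ) dv (fun a₁ => χ a₁) V hpar hVd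
    a (fun i => PQ.H.π (CuspForm.heckeAlgebra.T i.2.1 i.2.2.1 i.2.2.2))
    (fun i v => ha i.1 i.2.1 i.2.2.1 i.2.2.2 v) x
    (fun t ht => hthrough t (fun v => hle (ht v)))
  -- the pivot character is ramified at `pv i`
  obtain ⟨u₀, hu₀⟩ := hχ.2 i
  have hε : algebraMap 𝒪 P.O (χ (Pi.mulSingle i u₀)) ≠ 1 := by
    intro h1
    apply hu₀
    apply hxinj
    rw [h1, map_one]
  have hNM : ∀ r' : ℕ, r'.Prime →
      r' ∣ wilesLevel p .flat Smin (Smin ∪ Finset.univ.image pv ∪ Finset.univ.image qv) →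
      r' ∣ MIA p Smin pv qv := by
    intro r' hr hrN
    rw [← gLevel_mul_prod_IA p Smin pv qv .flat hpv hq.1 hdisj hpvS hqvS] at hrN
    rcases (Nat.Prime.dvd_mul hr).mp hrN with h1 | h1
    · exact h1
    · obtain ⟨s, -, hs⟩ := (Prime.dvd_finsetProd_iff hr.prime _).mp h1
      exact hs.trans (dvd_gLevel _ _ s)
  have hdvq : ∀ q : ℕ, q.Prime → q ∣ MIA p Smin pv qv → q ≠ pv i →
      (((((dv (Pi.mulSingle i u₀) : (ZMod (MIA p Smin pv qv))ˣ) :
        ZMod (MIA p Smin pv qv)).val : ℕ) : ℤ) : ZMod q) = 1 := by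
    intro q hqP hqM hqne
    refine cast_niceLift_of_prime (wilesLevel p .flat Smin Smin) (Sum.elim pv qv) hprime
      (hdv (Pi.mulSingle i u₀)) (hdv1 (Pi.mulSingle i u₀)) hqP hqM ?_
    rintro (i' | j) hne
    · by_cases hii : i' = i
      · subst hii
        exact hqne
      · exfalso
        apply hne
        show (Pi.mulSingle i u₀ : ∀ i : Fin k, (ZMod (pv i))ˣ) i' = 1
        exact Pi.mulSingle_eq_of_ne (M := fun i => (ZMod (pv i))ˣ) hii u₀
    · exact absurd rfl hne
  -- the dictionary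
  obtain ⟨chiF, j, M₁, hM₁, g, hj, hg, hM₁N, hM₁v, hgF⟩ :=
    Fermat.Agent.S38.H227.nuNew hK hH
      (↑(Smin ∪ Finset.univ.image pv ∪ Finset.univ.image qv) : Set ℕ) hsig hNM dv
      (P.χ.comp PQ.H.π) (fun a₁ => algebraMap 𝒪 P.O (χ a₁)) hrel (hvfac i)
      (Pi.mulSingle i u₀) hε hdvq
  haveI := hM₁
  have hNS : ∀ q : ℕ, q.Prime →
      q ∣ wilesLevel p .flat Smin (Smin ∪ Finset.univ.image pv ∪ Finset.univ.image qv) →
      q ∈ Smin ∪ Finset.univ.image pv ∪ Finset.univ.image qv := fun q hqP hqd =>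
    Finset.mem_coe.mp (hsig q hqP hqd)
  exact not_isUnipotentOnInertiaAt_of_char h36 PQ.H p hR.hp2 (hsub hR.hpSmin) hNS P.hp P.χ hP
    chiF j hj hg (fun q hqP hqd => hNS q hqP (hqd.trans hM₁N)) hgF (hpvP i)
    (fun hqp => hpvS i (hqp ▸ hR.hpSmin)) hM₁v

/-- **IA-NU** (leaf of layer 3 of the cell HECKE of row HARD), from the frozen S36 and IA-FREE. -/
theorem iaNu (h36 : Fermat.Agent.S58.S36Statement) (hFree : IAFreeStatement) :
    IANuStatement :=
  Fermat.Agent.S38.H473.iaNu_of_pt hFree (iaNuPt h36)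

end Fermat.Agent.S38.H47
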