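import Fermat.Agent.S58.Spec
import Fermat.Agent.S58.H273.ResGeneric
import Fermat.Agent.S58.H115.ChebCharpoly
import Fermat.Agent.S59.G4.H178.Odd

/-!
# Row HARD, cell HECKE / (NU): the consumer of the frozen S36   (helper47, squad S24/S47)

`(NU)` of the Ihara-avoidance chain (clause SUPP-NU of `S38.IA.HasIAModule`) asks, at a
characteristic-0 point `x : T → 𝒪'` of a Hecke–Galois datum `H`, that
`H.ρ.baseChangeAlong x` is NOT unipotent on inertia at a pivot `q`.

Route B:  (TW-NS, `S59.TW.H54.twist_exists_newform` / `S59.TW.H174.exists_newform_…`) the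
eigensystem of `x` is the one of a NEWFORM `g` of some level `M` with `M.factorization q = 2`;
(S36) some `λ`-adic representation attached to `g` is not unipotent on inertia at `q`.
THIS FILE is the missing glue between the two: the frozen S36 only gives SOME representation
`ρ''` over SOME extension `O''` of `𝒪'`; we transport the conclusion to `H.ρ.baseChangeAlong x`.

* hypothesis `hres` of S36 (absolutely irreducible, odd reduction of every attached
  representation) is discharged from `H.residual_absIrr` (Chebotarev + Burnside/Gram,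
  `S58.H273.residual_absIrr_of_frob`) and from the Frobenius determinants
  (`S59.H540.detIsCyclotomic_of_frob`, `S59.G4.H178.det_involution_eq_neg_one`);
* transport: `IsUnipotentOnInertiaAt` is a statement on characteristic polynomials, and two
  `GaloisRepAdic O''` with the same Frobenius characteristic polynomials outside a finite set have
  the same characteristic polynomials everywhere (`S58.H115.chebCharpoly`).

Main results:
* `not_isUnipotentOnInertiaAt_of_newform` : the statement above (`S36Statement` is a hypothesis).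
* `NUPointStatement` / `nuPoint_of_s36` : the same as a frozen `Prop` for the HECKE assembler.
-/

set_option autoImplicit false

open Polynomial IsLocalRing

namespace Fermat.Agent.S38.H47

/-- `Gal(ℚ̄/ℚ)` -/
abbrev GQ47 : Type := AlgebraicClosure ℚ ≃ₐ[ℚ] AlgebraicClosure ℚ

section Basic

variable {A : Type} [CommRing A] [IsLocalRing A]

/-- Characteristic polynomials commute with base change. -/
theorem charpoly_baseChangeAlong_h47 {B : Type} [CommRing B] [IsLocalRing B] (φ : A →+* B)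
    (hφ : IsLocalHom φ) (ρ : GaloisRepAdic A) (σ : GQ47) :
    LinearMap.charpoly ((ρ.baseChangeAlong φ hφ).ρ σ) = (LinearMap.charpoly (ρ.ρ σ)).map φ := by
  let _ : Algebra A B := φ.toAlgebra
  exact LinearMap.charpoly_baseChange (ρ.ρ σ) B

/-- The characteristic polynomial of the reduction. -/
theorem charpoly_residual_h47 (ρ : GaloisRepAdic A) (σ : GQ47) :
    LinearMap.charpoly (ρ.residual.ρ σ) = (LinearMap.charpoly (ρ.ρ σ)).map (residue A) := by
  have hres : LinearMap.charpoly (ρ.residual.ρ σ)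
      = LinearMap.charpoly ((ρ.ρ σ).baseChange (ResidueField A)) := rfl
  rw [hres, LinearMap.charpoly_baseChange, IsLocalRing.ResidueField.algebraMap_eq]

/-- The determinant is the constant coefficient of a quadratic characteristic polynomial. -/
theorem det_eq_of_charpoly_h47 (ρ : GaloisRepAdic A) (σ : GQ47) (a d : A)
    (h : LinearMap.charpoly (ρ.ρ σ) = X ^ 2 - C a * X + C d) :
    LinearMap.det (ρ.ρ σ) = d := by
  classical
  have hfr : Module.finrank A ρ.V = 2 := ρ.finrank_eq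
  have h0 := LinearMap.det_eq_sign_charpoly_coeff (ρ.ρ σ)
  rw [hfr, h] at h0
  simpa [coeff_X_pow, coeff_C] using h0

end Basic

section Main

variable {N : ℕ} [NeZero N] {S : Finset ℕ}
  {𝒪 : Type} [CommRing 𝒪] [IsDomain 𝒪] [IsDiscreteValuationRing 𝒪]
  [IsAdicComplete (maximalIdeal 𝒪) 𝒪]
  {θ : CuspForm.heckeAlgebra N 2 (↑S : Set ℕ) →+* ResidueField 𝒪}
  {T : Type} [CommRing T] [IsLocalRing T] [IsNoetherianRing T]
  [IsAdicComplete (maximalIdeal T) T] [Algebra 𝒪 T] [IsLocalHom (algebraMap 𝒪 T)]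
  [Module.Finite 𝒪 T] [Module.Free 𝒪 T]

/-- **(NU) at a point, from the frozen S36.**

`H` a Hecke–Galois datum of level `N` away from `S`; `x : T → 𝒪'` a local homomorphism to a
complete DVR of characteristic `0` and residue characteristic `p` odd; `g` a newform of level
`M` whose Hecke eigenvalues (transported to `𝒪'` by `iota`) are the values of `x` at the `T_ℓ`,
`ℓ ∉ S'` (`S' ⊇ S ∪ {p} ∪ primes of N M`).  If `q² ∥ M`, `q ≠ p`, then `H.ρ ⊗_x 𝒪'` is not
unipotent on inertia at `q`. -/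
theorem not_isUnipotentOnInertiaAt_of_newform
    (h36 : Fermat.Agent.S58.S36Statement)
    (H : CuspForm.HeckeGaloisRepDatum N (↑S : Set ℕ) 𝒪 θ T)
    (p : ℕ) [Fact p.Prime] (hp2 : p ≠ 2)
    {𝒪' : Type} [CommRing 𝒪'] [IsDomain 𝒪'] [IsDiscreteValuationRing 𝒪']
    [IsAdicComplete (maximalIdeal 𝒪') 𝒪'] [Finite (ResidueField 𝒪')] [CharZero 𝒪']
    (hp𝒪' : (p : 𝒪') ∈ maximalIdeal 𝒪')
    (x : T →+* 𝒪') (hx : IsLocalHom x)
    {M : ℕ} [NeZero M] {g : CuspForm (CongruenceSubgroup.Gamma0 M) 2} (hg : g.IsNewform)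
    (S' : Finset ℕ) (hSS' : S ⊆ S') (hpS' : p ∈ S')
    (hNS' : ∀ q : ℕ, q.Prime → q ∣ N → q ∈ S') (hMS' : ∀ q : ℕ, q.Prime → q ∣ M → q ∈ S')
    (chig : CuspForm.heckeAlgebra M 2 (↑S' : Set ℕ) →+* ℂ)
    (hchig : ∀ (ℓ : ℕ) (hℓ : ℓ.Prime) (hℓM : ¬ ℓ ∣ M) (hℓS : ℓ ∉ (↑S' : Set ℕ)),
      chig (CuspForm.heckeAlgebra.T hℓ hℓM hℓS) = ModularFormClass.qCoeff g ℓ)
    (iota : chig.range →+* 𝒪')
    (hcompat : ∀ (ℓ : ℕ) (hℓ : ℓ.Prime) (hℓN : ¬ ℓ ∣ N) (hℓM : ¬ ℓ ∣ M)
      (hℓS : ℓ ∉ (↑S : Set ℕ)) (hℓS' : ℓ ∉ (↑S' : Set ℕ)),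
      x (H.π (CuspForm.heckeAlgebra.T hℓ hℓN hℓS))
        = (iota.comp chig.rangeRestrict) (CuspForm.heckeAlgebra.T hℓ hℓM hℓS'))
    {q : ℕ} (hq : q.Prime) (hqp : q ≠ p) (hq2 : M.factorization q = 2) :
    ¬ (H.ρ.baseChangeAlong x hx).IsUnipotentOnInertiaAt q := by
  classical
  intro hU
  -- the Frobenius characteristic polynomials of `ρ_x`
  have hfrobx : ∀ (ℓ : ℕ) (hℓ : ℓ.Prime) (hℓM : ¬ ℓ ∣ M) (hℓS' : ℓ ∉ (↑S' : Set ℕ)),
      ∀ P : ValuationSubring (AlgebraicClosure ℚ), P.LiesOverPrime ℓ →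
        ∀ σ : GQ47, P.IsFrobeniusAt σ ℓ →
          LinearMap.charpoly ((H.ρ.baseChangeAlong x hx).ρ σ)
            = X ^ 2 - C ((iota.comp chig.rangeRestrict) (CuspForm.heckeAlgebra.T hℓ hℓM hℓS')) * X
              + C ((ℓ : 𝒪')) := by
    intro ℓ hℓ hℓM hℓS' P hP σ hσ
    have hℓS : ℓ ∉ (↑S : Set ℕ) := fun h => hℓS' (Finset.mem_coe.mpr (hSS' (Finset.mem_coe.mp h)))
    have hℓN : ¬ ℓ ∣ N := fun h => hℓS' (Finset.mem_coe.mpr (hNS' ℓ hℓ h))
    rw [charpoly_baseChangeAlong_h47, H.charpoly_frob ℓ hℓ hℓN hℓS P hP σ hσ,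
      ← hcompat ℓ hℓ hℓN hℓM hℓS hℓS']
    simp only [Polynomial.map_add, Polynomial.map_sub, Polynomial.map_mul, Polynomial.map_pow,
      Polynomial.map_X, Polynomial.map_C, Polynomial.map_natCast, map_natCast]
  -- the hypothesis `hres` of S36
  have hres : ∀ (O'' : Type) [CommRing O''] [IsDomain O''] [IsDiscreteValuationRing O'']
      [IsAdicComplete (maximalIdeal O'') O''] [Finite (ResidueField O'')] [CharZero O'']
      [Algebra 𝒪' O''] [Module.Finite 𝒪' O''] [IsLocalHom (algebraMap 𝒪' O'')],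
      Function.Injective (algebraMap 𝒪' O'') → ∀ (ρ : GaloisRepAdic O''),
      (∀ (ℓ : ℕ) (hℓ : ℓ.Prime) (_hℓlam : ℓ ≠ p) (hℓM : ¬ ℓ ∣ M) (hℓS : ℓ ∉ (↑S' : Set ℕ)),
        ∀ A : ValuationSubring (AlgebraicClosure ℚ), A.LiesOverPrime ℓ →
          ∀ σ : AlgebraicClosure ℚ ≃ₐ[ℚ] AlgebraicClosure ℚ, A.IsFrobeniusAt σ ℓ →
            LinearMap.charpoly (ρ.ρ σ) =
              X ^ 2 - C (algebraMap 𝒪' O''
                ((iota.comp chig.rangeRestrict) (CuspForm.heckeAlgebra.T hℓ hℓM hℓS))) * X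
                + C ((ℓ : O'')))
      → ρ.residual.IsAbsolutelyIrreducible ∧ ρ.residual.IsOdd := by
    intro O'' _ _ _ _ _ _ _ _ hloc _hinj ρ hρ
    have hpO'' : (p : O'') ∈ maximalIdeal O'' := by
      have h1 : algebraMap 𝒪' O'' (p : 𝒪') ∈ maximalIdeal O'' := by
        by_contra hcon
        have hu : IsUnit (algebraMap 𝒪' O'' (p : 𝒪')) := by
          by_contra hnu
          exact hcon ((IsLocalRing.mem_maximalIdeal _).mpr hnu)
        have hu' : IsUnit (p : 𝒪') := hloc.map_nonunit _ hu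
        exact ((IsLocalRing.mem_maximalIdeal _).mp hp𝒪') hu'
      rwa [map_natCast] at h1
    have hp : p.Prime := Fact.out
    refine ⟨?_, ?_⟩
    · -- absolutely irreducible
      let ψ : T →+* O'' := (algebraMap 𝒪' O'').comp x
      have hψ : IsLocalHom ψ := by
        have := hx
        exact RingHom.isLocalHom_comp (algebraMap 𝒪' O'') x
      let ι : ResidueField T →+* ResidueField O'' := ResidueField.map ψ
      refine Fermat.Agent.S58.H273.residual_absIrr_of_frob H.ρ.residual H.residual_absIrr ι ρ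
        (insert p S') ?_
      intro ℓ hℓ hℓS B hB σ hσ
      have hℓS' : ℓ ∉ (↑S' : Set ℕ) := fun h =>
        hℓS (Finset.mem_insert_of_mem (Finset.mem_coe.mp h))
      have hℓp : ℓ ≠ p := fun h => hℓS (by rw [h]; exact Finset.mem_insert_self _ _)
      have hℓS0 : ℓ ∉ (↑S : Set ℕ) := fun h =>
        hℓS' (Finset.mem_coe.mpr (hSS' (Finset.mem_coe.mp h)))
      have hℓN : ¬ ℓ ∣ N := fun h => hℓS' (Finset.mem_coe.mpr (hNS' ℓ hℓ h))
      have hℓM : ¬ ℓ ∣ M := fun h => hℓS' (Finset.mem_coe.mpr (hMS' ℓ hℓ h))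
      rw [hρ ℓ hℓ hℓp hℓM hℓS' B hB σ hσ, charpoly_residual_h47,
        H.charpoly_frob ℓ hℓ hℓN hℓS0 B hB σ hσ, ← hcompat ℓ hℓ hℓN hℓM hℓS0 hℓS']
      simp only [Polynomial.map_add, Polynomial.map_sub, Polynomial.map_mul, Polynomial.map_pow,
        Polynomial.map_X, Polynomial.map_C, Polynomial.map_natCast, map_natCast]
      have hι : ∀ t : T, ι (residue T t) = residue O'' (algebraMap 𝒪' O'' (x t)) := by
        intro t
        rfl
      rw [hι]
    · -- odd
      intro c hc hc1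
      have hdet : ∀ ℓ : ℕ, ℓ.Prime → ℓ ∉ insert p S' →
          ∀ P : ValuationSubring (AlgebraicClosure ℚ), P.LiesOverPrime ℓ →
            ∀ σ : AlgebraicClosure ℚ ≃ₐ[ℚ] AlgebraicClosure ℚ, P.IsFrobeniusAt σ ℓ →
              LinearMap.det (ρ.ρ σ) = (ℓ : O'') := by
        intro ℓ hℓ hℓS P hP σ hσ
        have hℓS' : ℓ ∉ (↑S' : Set ℕ) := fun h =>
          hℓS (Finset.mem_insert_of_mem (Finset.mem_coe.mp h))
        have hℓp : ℓ ≠ p := fun h => hℓS (by rw [h]; exact Finset.mem_insert_self _ _)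
        have hℓM : ¬ ℓ ∣ M := fun h => hℓS' (Finset.mem_coe.mpr (hMS' ℓ hℓ h))
        exact det_eq_of_charpoly_h47 ρ σ _ _ (hρ ℓ hℓ hℓp hℓM hℓS' P hP σ hσ)
      have hcyc : ρ.DetIsCyclotomic p :=
        Fermat.Agent.S59.H540.detIsCyclotomic_of_frob ρ p hpO'' (insert p S') hdet
      have h1 : LinearMap.det (ρ.ρ c) = -1 :=
        Fermat.Agent.S59.G4.H178.det_involution_eq_neg_one ρ p hp2 hcyc c hc hc1
      have h2 : LinearMap.det (ρ.residual.ρ c)
          = algebraMap O'' (ResidueField O'') (LinearMap.det (ρ.ρ c)) :=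
        LinearMap.det_baseChange (ρ.ρ c)
      rw [h2, h1, map_neg, map_one]
  -- apply S36
  obtain ⟨O'', i1, i2, i3, i4, i5, i6, i7, i8, i9, _hinj, ρ'', hfrob'', hnu''⟩ :=
    h36 (M := M) (g := g) hg p S' 𝒪' hp𝒪' hp2 chig hchig iota hpS' hMS' hres
  -- transport
  apply hnu'' q hq hqp hq2
  let ρx'' : GaloisRepAdic O'' :=
    (H.ρ.baseChangeAlong x hx).baseChangeAlong (algebraMap 𝒪' O'') i9
  have hcheb : ∀ σ : GQ47, LinearMap.charpoly (ρ''.ρ σ) = LinearMap.charpoly (ρx''.ρ σ) := by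
    refine Fermat.Agent.S58.H115.chebCharpoly O'' ρ'' ρx'' S' ?_
    intro ℓ hℓ hℓS' A hA σ hσ
    have hℓS'' : ℓ ∉ (↑S' : Set ℕ) := fun h => hℓS' (Finset.mem_coe.mp h)
    have hℓM : ¬ ℓ ∣ M := fun h => hℓS' (hMS' ℓ hℓ h)
    rw [hfrob'' ℓ hℓ hℓM hℓS'' A hA σ hσ, charpoly_baseChangeAlong_h47,
      hfrobx ℓ hℓ hℓM hℓS'' A hA σ hσ]
    simp only [Polynomial.map_add, Polynomial.map_sub, Polynomial.map_mul, Polynomial.map_pow,
      Polynomial.map_X, Polynomial.map_C, Polynomial.map_natCast, map_natCast]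
  intro P hP σ hσ
  rw [hcheb σ, charpoly_baseChangeAlong_h47, hU P hP σ hσ]
  simp

end Main

end Fermat.Agent.S38.H47
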