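import Fermat.Agent.S38.H227.NuNew
import Fermat.Agent.S38.H47.NUPoint
import Fermat.Agent.S38.H47.TwistHypIA
import Fermat.Agent.S38.H47.NiceLift
import Fermat.Agent.S59.TW.H324.CuspPkg

/-!
# (NU) at a point, GENERIC form: any type `t`, any odd `p`, any base level, any family
(helper47)

`nuPt_gen` is the core of `IANu.iaNuPt` (leaf IA-NU of the cell HECKE of row HARD), stated in
EXPANDED vocabulary so that it applies to every variant of the specification (`t = .flat` or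
`.sord`, `p = 3`, other base levels, other index types):

* `qq : ι → ℕ` a finite family of distinct primes prime to `N₀`, `M = gLevel N₀ qq`,
  `K = KG p N₀ qq`, `h` half for the family (`IsHalfG p qq h`);
* `PQ : HeckePkg p 𝒪 ρ̄ t Smin Σ` a Hecke package of ANY type `t` and ANY `Σ ⊇ Smin`, whose level
  is `N' = gLevel N₀ qq · ∏ qq s` (`hlev`);
* `V ⊆ X_K(𝒪)` a localised part (`IsLocPart` for `TsetOf PQ` and ANY `Uset`), with an action
  `a` of `PQ.T` through `⟨ℓ⟩^h T_ℓ` (`ActsBy … (tOpTw … h)`);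
* diamond indices `lift g ∈ ∏ (ℤ/qq s)ˣ` (`g : G`, ANY type) and scalars `χ g ∈ 𝒪`, with some `g₀`
  supported at `s₀` (`lift g₀ s = 1` for `s ≠ s₀`) and `χ g₀ ≠ 1`;
* `P` a local `p`-adic point of `PQ.T` through the annihilator of `V` modulo the relations
  `⟨lift g⟩ y - χ g • y` (`g : G`, `y ∈ V`).

Then `ρ_P` is NOT unipotent on inertia at `qq s₀`.  No hypothesis `5 ≤ p`, no `.flat`.
-/

set_option autoImplicit false
set_option linter.unusedSectionVars false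
set_option linter.unusedVariables false
set_option linter.style.haveILetI false

open Polynomial IsLocalRing CongruenceSubgroup
open scoped MatrixGroups

namespace Fermat.Agent.S38.H47

open Fermat.Agent.S59.Arch Fermat.Agent.S59.TW.H959 Fermat.Agent.S59.TW Fermat.Agent.S59.H765
open Fermat.Agent.S59.TW.H653 Fermat.Agent.S59.TW.Aut Fermat.Agent.S59.TW.H658
open Fermat.Agent.S38.IA Fermat.Agent.S38.IA.Hecke
open CuspForm

/-- A ring homomorphism from a discrete valuation ring of residue characteristic `p` to a domain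
of characteristic `0` is injective. -/
theorem injective_of_dvr_gen_h47 {A R : Type*} [CommRing A] [IsDomain A]
    [IsDiscreteValuationRing A] [CommRing R] [IsDomain R] [CharZero R] {p : ℕ} (hp0 : p ≠ 0)
    (hp : (p : A) ∈ maximalIdeal A) (f : A →+* R) : Function.Injective f := by
  rw [RingHom.injective_iff_ker_eq_bot]
  by_contra hne
  have hprime : (RingHom.ker f).IsPrime := RingHom.ker_isPrime f
  have hmax : (RingHom.ker f).IsMaximal := hprime.isMaximal hne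
  have h1 : RingHom.ker f = maximalIdeal A := IsLocalRing.eq_maximalIdeal hmax
  have hpk : (p : A) ∈ RingHom.ker f := h1 ▸ hp
  rw [RingHom.mem_ker, map_natCast] at hpk
  exact hp0 (Nat.cast_eq_zero.mp hpk)

/-- `v_{qq s₀}(N₀ ∏ qq s²) = 2`. -/
theorem factorization_gLevel_mul_prod {N₀ : ℕ} {ι : Type} [Fintype ι] (qq : ι → ℕ)
    (hN₀ : N₀ ≠ 0) (hinj : Function.Injective qq) (hprime : ∀ s, (qq s).Prime)
    (hcop : ∀ s, Nat.Coprime N₀ (qq s)) (s₀ : ι) :
    (gLevel N₀ qq * ∏ s, qq s).factorization (qq s₀) = 2 := by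
  classical
  have hP0 : (∏ s, qq s) ≠ 0 := Finset.prod_ne_zero_iff.mpr fun s _ => (hprime s).ne_zero
  have e : gLevel N₀ qq * ∏ s, qq s = N₀ * ∏ s, (qq s) ^ 2 := by
    rw [gLevel, Finset.prod_pow]
    ring
  rw [e]
  have hP2 : (∏ s, (qq s) ^ 2) ≠ 0 :=
    Finset.prod_ne_zero_iff.mpr fun s _ => pow_ne_zero _ (hprime s).ne_zero
  rw [Nat.factorization_mul hN₀ hP2, Finsupp.add_apply]
  have h0 : N₀.factorization (qq s₀) = 0 := by
    rw [Nat.factorization_eq_zero_iff]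
    right; left
    exact fun hd => (Nat.Prime.coprime_iff_not_dvd (hprime s₀)).mp (hcop s₀).symm hd
  rw [h0, zero_add, Nat.factorization_prod (fun s _ => pow_ne_zero _ (hprime s).ne_zero),
    Finset.sum_apply']
  rw [Finset.sum_eq_single s₀]
  · rw [Nat.factorization_pow, Finsupp.smul_apply, (hprime s₀).factorization_self, smul_eq_mul,
      mul_one]
  · intro s _ hs
    rw [Nat.factorization_pow, Finsupp.smul_apply, smul_eq_mul, mul_eq_zero]
    right
    rw [Nat.factorization_eq_zero_iff]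
    right; left
    intro hd
    exact hs (hinj ((Nat.prime_dvd_prime_iff_eq (hprime s₀) (hprime s)).mp hd).symm)
  · intro h
    exact absurd (Finset.mem_univ _) h

section Gen

variable {p : ℕ} [hpF : Fact p.Prime]
  {𝒪 : Type} [CommRing 𝒪] [IsDomain 𝒪] [IsDiscreteValuationRing 𝒪]
  [IsAdicComplete (maximalIdeal 𝒪) 𝒪] [Finite (ResidueField 𝒪)] [CharZero 𝒪]
  {ρbar : ResidualGaloisRep (ResidueField 𝒪)} {Smin : Finset ℕ}

/-- **(NU) at a point, generic form.** -/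
theorem nuPt_gen (h36 : Fermat.Agent.S58.S36Statement)
    (hR : ResidualHyp p 𝒪 ρbar Smin) (t : PType) {Sig : Finset ℕ} (hsub : Smin ⊆ Sig)
    (hSigP : ∀ q ∈ Sig, q.Prime) [NeZero (wilesLevel p t Smin Sig)]
    (PQ : HeckePkg p 𝒪 ρbar t Smin Sig)
    (N₀ : ℕ) {ι : Type} [Fintype ι] (qq : ι → ℕ)
    (hN₀ : N₀ ≠ 0) (hinj : Function.Injective qq) (hprime : ∀ s, (qq s).Prime)
    (hcop : ∀ s, Nat.Coprime N₀ (qq s))
    (hlev : gLevel N₀ qq * ∏ s, qq s = wilesLevel p t Smin Sig)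
    {h : ℕ} (hh : IsHalfG p qq h)
    {Uset : Set (ℕ × 𝒪)} {V : Submodule 𝒪 (Additive (KG p N₀ qq) →+ 𝒪)}
    (hV : IsLocPart (isMid_KG p N₀ qq) (TsetOf PQ) Uset V)
    (a : PQ.T →ₐ[𝒪] Module.End 𝒪 V)
    (ha : ActsBy PQ V a (tOpTw (isMid_KG p N₀ qq) 𝒪 h))
    {G : Type} (lift : G → ∀ s : ι, (ZMod (qq s))ˣ) (χ : G → 𝒪)
    (s₀ : ι) (hs₀ : qq s₀ ≠ p) (g₀ : G) (hχ : χ g₀ ≠ 1)
    (hg₀ : ∀ s, lift g₀ s ≠ 1 → s = s₀)
    (P : Fermat.Agent.S31.PadicPoint p PQ.T) (hP : IsLocalHom P.χ)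
    (hthrough : ∀ t' : PQ.T,
      (∀ v : V, ((a t' v : V) : Additive (KG p N₀ qq) →+ 𝒪) ∈
        Submodule.span 𝒪 {w | ∃ (g : G) (y : Additive (KG p N₀ qq) →+ 𝒪), y ∈ V ∧
          w = diamondU (isMid_KG p N₀ qq) (gLift N₀ qq (lift g)) y - χ g • y}) →
      P.χ t' = 0) :
    ¬ (PQ.H.ρ.baseChangeAlong P.χ hP).IsUnipotentOnInertiaAt (qq s₀) := by
  classical
  have hMne : gLevel N₀ qq ≠ 0 := gLevel_ne_zero N₀ qq hN₀ hprime
  haveI : NeZero (gLevel N₀ qq) := ⟨hMne⟩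
  have hsurj : Function.Surjective (gRed N₀ qq) := gRed_surjective N₀ qq hN₀ hinj hprime
  have hK : IsMid (gLevel N₀ qq) (KG p N₀ qq) := isMid_KG p N₀ qq
  haveI : (KG p N₀ qq).FiniteIndex :=
    Fermat.Agent.S59.TW.H564.finiteIndex_of_Gamma1_le (M := gLevel N₀ qq) hK.ge
  have hH : TwistHyp (KG p N₀ qq) (wilesLevel p t Smin Sig)
      (fun ℓ => uOf (gLevel N₀ qq) ℓ ^ h) :=
    twistHyp_KG p N₀ qq hinj hprime hcop hh (dvd_of_eq hlev)
  have hsig : ∀ q : ℕ, q.Prime → q ∣ wilesLevel p t Smin Sig → q ∈ (↑Sig : Set ℕ) :=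
    fun q hq hd => Finset.mem_coe.mpr
      (mem_of_prime_dvd_wilesLevel hpF.out hR.hSmin hSigP hR.hpSmin hsub q hq hd)
  -- the nice lifts of the diamond indices
  choose dv hdv hdv1 using fun g : G => exists_niceLift N₀ qq hN₀ hinj hprime hcop (lift g)
  have hdia : ∀ (g : G) (y : Additive (KG p N₀ qq) →+ 𝒪),
      diamondU hK (dv g) y = diamondU hK (gLift N₀ qq (lift g)) y := fun g y =>
    diamondU_eq_gLift p N₀ qq hsurj (hdv g) y
  -- parabolic classes
  have hpar : ∀ v ∈ V, ModularCurve.Period.IsParabolicHom (KG p N₀ qq) v :=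
    Fermat.Agent.S59.TW.H324.isLocPart_parabolic_of_pkg p 𝒪 ρbar Smin hR t Sig hsub hSigP PQ
      hMne hK hV
  have hVd : ∀ (g : G), ∀ v ∈ V, diamondU hK (dv g) v ∈ V := by
    intro g v hv
    obtain ⟨e, -, he2, he3, -, -, heD, -⟩ := IsLocPart.exists_proj hV
    have h1 := heD (dv g) v
    rw [he3 v hv] at h1
    rw [← h1]
    exact he2 _
  -- the point as an `𝒪`-algebra homomorphism
  letI : Algebra 𝒪 P.O := (P.χ.comp (algebraMap 𝒪 PQ.T)).toAlgebra
  let x : PQ.T →ₐ[𝒪] P.O := { P.χ with commutes' := fun _ => rfl }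
  have hxinj : Function.Injective (algebraMap 𝒪 P.O) :=
    injective_of_dvr_gen_h47 hpF.out.ne_zero hR.hp𝒪 _
  -- SUPP-REL
  have hle : Fermat.Agent.S38.H227.chiRel hK dv χ V ≤
      Submodule.span 𝒪 {w | ∃ (g : G) (y : Additive (KG p N₀ qq) →+ 𝒪), y ∈ V ∧
          w = diamondU (isMid_KG p N₀ qq) (gLift N₀ qq (lift g)) y - χ g • y} := by
    unfold Fermat.Agent.S38.H227.chiRel
    refine Submodule.span_le.mpr ?_
    rintro w ⟨g, y, hy, rfl⟩
    refine Submodule.subset_span ⟨g, y, hy, ?_⟩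
    rw [hdia g y]
  have hrel := Fermat.Agent.S38.H227.suppRel hK hH.dvd
    (fun ℓ => uOf (gLevel N₀ qq) ℓ ^ h) (↑Sig : Set ℕ) dv χ V hpar hVd
    a (fun i => PQ.H.π (CuspForm.heckeAlgebra.T i.2.1 i.2.2.1 i.2.2.2))
    (fun i v => ha i.1 i.2.1 i.2.2.1 i.2.2.2 v) x
    (fun t' ht => hthrough t' (fun v => hle (ht v)))
  have hε : algebraMap 𝒪 P.O (χ g₀) ≠ 1 := by
    intro h1
    apply hχ
    apply hxinj
    rw [h1, map_one]
  have hNM : ∀ r' : ℕ, r'.Prime → r' ∣ wilesLevel p t Smin Sig → r' ∣ gLevel N₀ qq := by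
    intro r' hr hrN
    rw [← hlev] at hrN
    rcases (Nat.Prime.dvd_mul hr).mp hrN with h1 | h1
    · exact h1
    · obtain ⟨s, -, hs⟩ := (Prime.dvd_finsetProd_iff hr.prime _).mp h1
      exact hs.trans (dvd_gLevel _ _ s)
  have hdvq : ∀ q : ℕ, q.Prime → q ∣ gLevel N₀ qq → q ≠ qq s₀ →
      (((((dv g₀ : (ZMod (gLevel N₀ qq))ˣ) : ZMod (gLevel N₀ qq)).val : ℕ) : ℤ) : ZMod q) = 1 := by
    intro q hqP hqM hqne
    refine cast_niceLift_of_prime N₀ qq hprime (hdv g₀) (hdv1 g₀) hqP hqM ?_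
    intro s hne hqs
    rw [hg₀ s hne] at hqs
    exact hqne hqs
  have hvfac : (wilesLevel p t Smin Sig).factorization (qq s₀) = 2 := by
    rw [← hlev]
    exact factorization_gLevel_mul_prod qq hN₀ hinj hprime hcop s₀
  -- the dictionary
  obtain ⟨chiF, j, M₁, hM₁, g, hj, hg, hM₁N, hM₁v, hgF⟩ :=
    Fermat.Agent.S38.H227.nuNew hK hH (↑Sig : Set ℕ) hsig hNM dv
      (P.χ.comp PQ.H.π) (fun g => algebraMap 𝒪 P.O (χ g)) hrel hvfac g₀ hε hdvq
  haveI := hM₁
  have hNS : ∀ q : ℕ, q.Prime → q ∣ wilesLevel p t Smin Sig → q ∈ Sig := fun q hqP hqd =>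
    Finset.mem_coe.mp (hsig q hqP hqd)
  exact not_isUnipotentOnInertiaAt_of_char h36 PQ.H p hR.hp2 (hsub hR.hpSmin) hNS P.hp P.χ hP
    chiF j hj hg (fun q hqP hqd => hNS q hqP (hqd.trans hM₁N)) hgF (hprime s₀) hs₀ hM₁v

end Gen

end Fermat.Agent.S38.H47
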