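import Fermat.Agent.S38.H47.NuGen
import Fermat.Agent.S38.H473.PtSpec

/-!
# (NU) at a point for the combined family (pivots, Taylor–Wiles primes), ANY type `t`, ANY odd `p`
(helper47)

* `nuPt_IA_t` : the instance of `nuPt_gen` at `qq = Sum.elim pv qv`, `N₀ = wilesLevel p t Smin Smin`,
  `Σ = Smin ∪ Piv ∪ Q`, in EXPANDED vocabulary (`KG p N₀ (Sum.elim pv qv)`,
  `diamondU (isMid_KG …) (gLift … (pairU a₁ 1))`): the `t`-twin of `H473.IANuPtAt`, without
  `5 ≤ p` and without `.flat`.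
* `iaNuPt_of_gen` : for `t = .flat` it is `H473.IANuPtStatement` (second proof of
  `IANu.iaNuPt`; shows that the expanded vocabulary matches `Spec3` definitionally).
-/

set_option autoImplicit false
set_option linter.unusedSectionVars false
set_option linter.unusedVariables false
set_option linter.style.haveILetI false

open Polynomial IsLocalRing CongruenceSubgroup
open scoped MatrixGroups

namespace Fermat.Agent.S38.H47

open Fermat.Agent.S59.Arch Fermat.Agent.S59.TW.H959 Fermat.Agent.S59.TW Fermat.Agent.S59.H765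
open Fermat.Agent.S59.TW.H653 Fermat.Agent.S59.TW.Aut Fermat.Agent.S59.TW.H658
open Fermat.Agent.S38.IA Fermat.Agent.S38.IA.Hecke
open CuspForm

section IAt

variable {p : ℕ} [hpF : Fact p.Prime]
  {𝒪 : Type} [CommRing 𝒪] [IsDomain 𝒪] [IsDiscreteValuationRing 𝒪]
  [IsAdicComplete (maximalIdeal 𝒪) 𝒪] [Finite (ResidueField 𝒪)] [CharZero 𝒪]
  {ρbar : ResidualGaloisRep (ResidueField 𝒪)} {Smin : Finset ℕ}

/-- **(NU) at a point for the combined family, any type `t`, any odd `p`.** -/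
theorem nuPt_IA_t (h36 : Fermat.Agent.S58.S36Statement)
    (hR : ResidualHyp p 𝒪 ρbar Smin) (t : PType)
    {Piv : Finset ℕ} (hPiv : IsPivotSet p ρbar Smin Piv)
    {k : ℕ} {pv : Fin k → ℕ} (hpv : Function.Injective pv)
    (hpvPiv : Finset.univ.image pv = Piv)
    {n r : ℕ} {qv : Fin r → ℕ} (hq : IsTWSet p ρbar (Smin ∪ Piv) n qv)
    [NeZero (wilesLevel p t Smin (Smin ∪ Piv ∪ Finset.univ.image qv))]
    (PQ : HeckePkg p 𝒪 ρbar t Smin (Smin ∪ Piv ∪ Finset.univ.image qv))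
    {Uset : Set (ℕ × 𝒪)}
    {V : Submodule 𝒪 (Additive (KG p (wilesLevel p t Smin Smin) (Sum.elim pv qv)) →+ 𝒪)}
    (hV : IsLocPart (isMid_KG p (wilesLevel p t Smin Smin) (Sum.elim pv qv)) (TsetOf PQ) Uset V)
    {h : ℕ} (hh₁ : IsHalf p pv h) (hh₂ : IsHalf p qv h)
    (a : PQ.T →ₐ[𝒪] Module.End 𝒪 V)
    (ha : ActsBy PQ V a (tOpTw (isMid_KG p (wilesLevel p t Smin Smin) (Sum.elim pv qv)) 𝒪 h))
    (χ : (∀ i : Fin k, (ZMod (pv i))ˣ) →* 𝒪) (hχ : ∀ i : Fin k, ∃ u, χ (Pi.mulSingle i u) ≠ 1)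
    (P : Fermat.Agent.S31.PadicPoint p PQ.T) (hP : IsLocalHom P.χ)
    (hthrough : ∀ t' : PQ.T,
      (∀ v : V, ((a t' v : V) :
          Additive (KG p (wilesLevel p t Smin Smin) (Sum.elim pv qv)) →+ 𝒪) ∈
        Submodule.span 𝒪 {w | ∃ (a₁ : ∀ i : Fin k, (ZMod (pv i))ˣ)
            (y : Additive (KG p (wilesLevel p t Smin Smin) (Sum.elim pv qv)) →+ 𝒪), y ∈ V ∧
          w = diamondU (isMid_KG p (wilesLevel p t Smin Smin) (Sum.elim pv qv))
              (gLift (wilesLevel p t Smin Smin) (Sum.elim pv qv)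
                (pairU a₁ (1 : ∀ j : Fin r, (ZMod (qv j))ˣ))) y - χ a₁ • y}) →
      P.χ t' = 0) :
    ∀ q ∈ Piv, ¬ (PQ.H.ρ.baseChangeAlong P.χ hP).IsUnipotentOnInertiaAt q := by
  classical
  subst hpvPiv
  intro q hqPiv
  obtain ⟨i, -, rfl⟩ := Finset.mem_image.mp hqPiv
  have hpvMem : ∀ i, pv i ∈ Finset.univ.image pv := fun i =>
    Finset.mem_image_of_mem pv (Finset.mem_univ i)
  have hpvP : ∀ i, (pv i).Prime := fun i => (hPiv (pv i) (hpvMem i)).1
  have hqvP : ∀ j, (qv j).Prime := fun j => (hq.2.1 j).1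
  have hpvS : ∀ i, pv i ∉ Smin := fun i => (hPiv (pv i) (hpvMem i)).2.1
  have hqvS : ∀ j, qv j ∉ Smin := fun j hj => (hq.2.1 j).2.1 (Finset.mem_union_left _ hj)
  have hdisj : ∀ i j, pv i ≠ qv j := fun i j hij =>
    (hq.2.1 j).2.1 (Finset.mem_union_right _ (hij ▸ hpvMem i))
  have hinj : Function.Injective (Sum.elim pv qv) := elim_injective pv qv hpv hq.1 hdisj
  have hprime : ∀ s, (Sum.elim pv qv s).Prime := by
    rintro (i | j)
    · exact hpvP i
    · exact hqvP j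
  have hN₀ : wilesLevel p t Smin Smin ≠ 0 := wilesLevel_ne_zero hpF.out hR.hSmin hR.hSmin
  have hcop : ∀ s, Nat.Coprime (wilesLevel p t Smin Smin) (Sum.elim pv qv s) := by
    rintro (i | j)
    · exact coprime_wilesLevel p t Smin hR.hpSmin hR.hSmin (hpvP i) (hpvS i)
    · exact coprime_wilesLevel p t Smin hR.hpSmin hR.hSmin (hqvP j) (hqvS j)
  have hsub : Smin ⊆ Smin ∪ Finset.univ.image pv ∪ Finset.univ.image qv :=
    Finset.subset_union_left.trans Finset.subset_union_left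
  have hSigP : ∀ q ∈ Smin ∪ Finset.univ.image pv ∪ Finset.univ.image qv, q.Prime := by
    intro q hq'
    rcases Finset.mem_union.mp hq' with h' | h'
    · rcases Finset.mem_union.mp h' with h'' | h''
      · exact hR.hSmin q h''
      · exact (hPiv q h'').1
    · obtain ⟨j, -, rfl⟩ := Finset.mem_image.mp h'
      exact hqvP j
  obtain ⟨u₀, hu₀⟩ := hχ i
  refine nuPt_gen h36 hR t hsub hSigP PQ (wilesLevel p t Smin Smin) (Sum.elim pv qv) hN₀ hinj
    hprime hcop (gLevel_mul_prod_IA p Smin pv qv t hpv hq.1 hdisj hpvS hqvS)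
    (isHalfG_elim p pv qv hh₁ hh₂) hV a ha
    (fun a₁ : (∀ i : Fin k, (ZMod (pv i))ˣ) => pairU a₁ (1 : ∀ j : Fin r, (ZMod (qv j))ˣ))
    (fun a₁ => χ a₁) (Sum.inl i) (fun hqp : pv i = p => hpvS i (hqp ▸ hR.hpSmin)) (Pi.mulSingle i u₀) hu₀ ?_
    P hP hthrough
  rintro (i' | j) hne
  · by_cases hii : i' = i
    · rw [hii]
    · exfalso
      apply hne
      show (Pi.mulSingle i u₀ : ∀ i : Fin k, (ZMod (pv i))ˣ) i' = 1
      exact Pi.mulSingle_eq_of_ne (M := fun i => (ZMod (pv i))ˣ) hii u₀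
  · exact absurd rfl hne

end IAt

/-- **IA-NU, pointwise** (`t = .flat`), as an instance of the generic form. -/
theorem iaNuPt_of_gen (h36 : Fermat.Agent.S58.S36Statement) :
    Fermat.Agent.S38.H473.IANuPtStatement := by
  intro p hpF hp5 𝒪 _ _ _ _ _ _ ρbar Smin hR hflat Piv hPiv k pv hpv hpvPiv n r qv hq hNQ PQ α hα
    V h a hV hhalf₁ hhalf₂ ha χ hχ P hP hthrough
  exact nuPt_IA_t h36 hR .flat hPiv hpv hpvPiv hq PQ hV hhalf₁ hhalf₂ a ha χ hχ.2 P hP hthrough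

end Fermat.Agent.S38.H47
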